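import Fermat.Agent.CFT.F.Final

/-!
# CFT / Part W (formal half of Greenberg-Wiles, for S56) : definitions.

Everything is on top of Part F (`Datum`, `Datum.Ctx`), NEW files only (Part F is frozen).

* `Datum.LocNV k U` : (LN) the extra LOCAL input at a good level `U`:
  `h^2(G_v, k[G/U]) ≥ h^0(G_v, k[G/U])` (= number of places over `v`), i.e. `H^2(L_w, μ_p) ≠ 0`;
* `Datum.WCtx` : `Ctx` + cofinality of the good levels satisfying (LN) + `ι` nonempty;
* `Datum.SelZ1 / Datum.Sel` : Selmer cocycles / Selmer group of a family of local conditions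
  `L v ≤ Z^1(G_v, V)` (given as submodules of cochains);
* `Datum.perp` : the orthogonal local conditions (a DEFINITION: no perfectness of local pairings);
* `Datum.eulerChar` : `h^0 - h^1 + h^2`.
-/

set_option autoImplicit false

namespace Fermat.Agent.CFT

open Module

/-- (LN) `h^0(G_v,k[G/U]) ≤ h^2(G_v,k[G/U]) < ∞` for all `v`. -/
structure Datum.LocNV (D : Datum) (k : Type) [Field k] (U : Subgroup D.G) : Prop where
  fin : ∀ v, Module.Finite k (H2 (D.levv v) (D.loc (permRep k U) v))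
  le : ∀ v, finrank k ↥((D.loc (permRep k U) v).invariants) ≤
    finrank k (H2 (D.levv v) (D.loc (permRep k U) v))

/-- the working context of Part W -/
structure Datum.WCtx (D : Datum) {k : Type} [Field k] (χ : D.G →* kˣ)
    (lam : ∀ v : D.ι, (D.Gv v × D.Gv v → k) →ₗ[k] k) (Φ : D.CC3 k →ₗ[k] k) : Prop where
  ctx : D.Ctx χ lam Φ
  ne : Nonempty D.ι
  good2 : ∀ U ∈ D.lev.carrier, ∃ W ∈ D.lev.carrier, W ≤ U ∧ D.GoodLevel k W ∧ D.LocNV k W

/-- adapted level with (LN) -/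
structure Datum.Adapted2 (D : Datum) {k : Type} [Field k] (χ : D.G →* kˣ) {V : Type}
    [AddCommGroup V] [Module k V] (ρ : Representation k D.G V) (U : Subgroup D.G) : Prop where
  ad : D.Adapted χ ρ U
  nv : D.LocNV k U

section

variable {D : Datum} {k : Type} [Field k] {χ : D.G →* kˣ}
  {lam : ∀ v : D.ι, (D.Gv v × D.Gv v → k) →ₗ[k] k} {Φ : D.CC3 k →ₗ[k] k}

theorem exists_adapted2 (w : D.WCtx χ lam Φ) {N : Type} [AddCommGroup N] [Module k N]
    [FiniteDimensional k N] {ρ : Representation k D.G N} (hρ : IsSmooth D.lev ρ)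
    {U₀ : Subgroup D.G} (hU₀ : U₀ ∈ D.lev.carrier) : ∃ U, U ≤ U₀ ∧ D.Adapted2 χ ρ U := by
  obtain ⟨U₁, hU₁, h₁⟩ := w.ctx.chi_smooth
  obtain ⟨U₂, hU₂, h₂⟩ := hρ.exists_trivial
  obtain ⟨W₁, hW₁, hW₁0, hW₁1⟩ := D.lev.directed U₀ hU₀ U₁ hU₁
  obtain ⟨W₂, hW₂, hW₂1, hW₂2⟩ := D.lev.directed W₁ hW₁ U₂ hU₂
  obtain ⟨W, hW, hWW₂, hgood, hnv⟩ := w.good2 W₂ hW₂
  exact ⟨W, hWW₂.trans (hW₂1.trans hW₁0), ⟨hW, hgood,
    fun s hs v => h₂ s (hW₂2 (hWW₂ hs)) v, fun s hs => h₁ s (hW₁1 (hW₂1 (hWW₂ hs)))⟩, hnv⟩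

end

section Selmer

variable (D : Datum) {k : Type} [Field k] {V : Type} [AddCommGroup V] [Module k V]
  (ρ : Representation k D.G V)

/-- Selmer cocycles: global 1-cocycles whose restriction at `v` lies in `L v` -/
def Datum.SelZ1 (L : ∀ v : D.ι, Submodule k (D.Gv v → V)) : Submodule k (D.G → V) :=
  Z1 D.lev ρ ⊓ (Submodule.pi Set.univ L).comap D.res1

/-- the Selmer group -/
abbrev Datum.Sel (L : ∀ v : D.ι, Submodule k (D.Gv v → V)) : Type :=
  ↥(D.SelZ1 ρ L) ⧸ (B1 ρ).submoduleOf (D.SelZ1 ρ L)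

/-- the local condition modulo coboundaries: `L_v ⊆ H^1(G_v,V)` -/
abbrev Datum.LocQ (L : ∀ v : D.ι, Submodule k (D.Gv v → V)) (v : D.ι) : Type :=
  ↥(L v) ⧸ (B1 (D.loc ρ v)).submoduleOf (L v)

/-- the orthogonal local condition in `Z^1(G_v, V^*(1))` -/
def Datum.perp (χ : D.G →* kˣ) (lam : ∀ v : D.ι, (D.Gv v × D.Gv v → k) →ₗ[k] k)
    (L : ∀ v : D.ι, Submodule k (D.Gv v → V)) (v : D.ι) :
    Submodule k (D.Gv v → Module.Dual k V) where
  carrier := {b | b ∈ Z1 (D.levv v) (D.loc (ρ.dual.twist χ) v) ∧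
    ∀ a ∈ L v, lam v (cup11 (D.loc (ρ.dual.twist χ) v) (evalP k V) a b) = 0}
  add_mem' := by
    rintro b b' ⟨h1, h2⟩ ⟨h1', h2'⟩
    refine ⟨Submodule.add_mem _ h1 h1', fun a ha => ?_⟩
    have : cup11 (D.loc (ρ.dual.twist χ) v) (evalP k V) a (b + b') =
        cup11 (D.loc (ρ.dual.twist χ) v) (evalP k V) a b +
          cup11 (D.loc (ρ.dual.twist χ) v) (evalP k V) a b' := by
      funext g
      simp [cup11]
    rw [this, map_add, h2 a ha, h2' a ha, add_zero]
  zero_mem' := by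
    refine ⟨Submodule.zero_mem _, fun a _ => ?_⟩
    have : cup11 (D.loc (ρ.dual.twist χ) v) (evalP k V) a 0 = 0 := by
      funext g
      simp [cup11]
    rw [this, map_zero]
  smul_mem' := by
    rintro c b ⟨h1, h2⟩
    refine ⟨Submodule.smul_mem _ c h1, fun a ha => ?_⟩
    have : cup11 (D.loc (ρ.dual.twist χ) v) (evalP k V) a (c • b) =
        c • cup11 (D.loc (ρ.dual.twist χ) v) (evalP k V) a b := by
      funext g
      simp [cup11]
    rw [this, map_smul, h2 a ha, smul_zero]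

/-- the Euler characteristic `h^0 - h^1 + h^2` -/
noncomputable def Datum.eulerChar : ℤ :=
  (finrank k ↥ρ.invariants : ℤ) - finrank k (H1 D.lev ρ) + finrank k (H2 D.lev ρ)

end Selmer

end Fermat.Agent.CFT
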