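import Fermat.Agent.CFT.W.LESAux

/-! # CFT / Part W, WP W-LES2 (see LESDefs.lean for the recipe). -/

set_option autoImplicit false

namespace Fermat.Agent.CFT

open Module

variable {k : Type} [Field k] {G : Type} [Group G] (𝒰 : Levels G)
  {A B C : Type} [AddCommGroup A] [Module k A] [AddCommGroup B] [Module k B]
  [AddCommGroup C] [Module k C]
  {ρA : Representation k G A} {ρB : Representation k G B} {ρC : Representation k G C}
  {i : A →ₗ[k] B} {π : B →ₗ[k] C}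

/-- functoriality of `H^2` -/
noncomputable def LES.H2map {V W : Type} [AddCommGroup V] [Module k V] [AddCommGroup W] [Module k W]
    {ρ : Representation k G V} {σ : Representation k G W}
    (f : V →ₗ[k] W) (hf : ∀ g v, f (ρ g v) = σ g (f v)) : H2 𝒰 ρ →ₗ[k] H2 𝒰 σ :=
  Submodule.mapQ _ _
    (LinearMap.codRestrict (Z2 𝒰 σ) ((f.compLeft (G × G)).domRestrict (Z2 𝒰 ρ))
      (fun a => comp_mem_Z2 f hf a.2))
    (fun a ha => comp_mem_B2 f hf (a := a.1) ha)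

theorem LES.H2map_mk {V W : Type} [AddCommGroup V] [Module k V] [AddCommGroup W] [Module k W]
    {ρ : Representation k G V} {σ : Representation k G W}
    (f : V →ₗ[k] W) (hf : ∀ g v, f (ρ g v) = σ g (f v)) (a : ↥(Z2 𝒰 ρ)) :
    LES.H2map 𝒰 f hf (Submodule.Quotient.mk a) =
      Submodule.Quotient.mk ⟨f ∘ a.1, comp_mem_Z2 f hf a.2⟩ := rfl

theorem LES.H2mk_eq_zero {V : Type} [AddCommGroup V] [Module k V]
    {ρ : Representation k G V} (a : ↥(Z2 𝒰 ρ)) :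
    (Submodule.Quotient.mk a : H2 𝒰 ρ) = 0 ↔ a.1 ∈ B2 𝒰 ρ := by
  rw [Submodule.Quotient.mk_eq_zero]
  rfl

/-- `0 → H^1(C)/im → H^2(A) → H^2(B) → H^2(C) → 0` -/
theorem LES.high (ses : IsSES ρA ρB ρC i π) [FiniteDimensional k A] [FiniteDimensional k B]
    [FiniteDimensional k C] (hA : IsSmooth 𝒰 ρA) (hB : IsSmooth 𝒰 ρB) (hC : IsSmooth 𝒰 ρC)
    [Module.Finite k (H1 𝒰 ρC)] [Module.Finite k (H2 𝒰 ρA)] [Module.Finite k (H2 𝒰 ρB)]
    [Module.Finite k (H2 𝒰 ρC)]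
    (hsurj : ∀ c ∈ Z2 𝒰 ρC, ∃ b ∈ Z2 𝒰 ρB, π ∘ b - c ∈ B2 𝒰 ρC) :
    finrank k (H1 𝒰 ρC) + finrank k (H2 𝒰 ρB) =
      finrank k (↥(imZ1 𝒰 ρB ρC π) ⧸ (B1 ρC).submoduleOf (imZ1 𝒰 ρB ρC π)) +
        finrank k (H2 𝒰 ρA) + finrank k (H2 𝒰 ρC) := by
  obtain ⟨s, r, hs, hr, hir⟩ := LES.exists_splitting ses
  have fC := LES.finite_Z1 𝒰 hC
  have fim : Module.Finite k ↥(imZ1 𝒰 ρB ρC π) :=
    Submodule.finiteDimensional_of_le (LES.imZ1_le_Z1 𝒰 ses hC)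
  -- values in `i(A)`
  have hir1 : ∀ f : G → B, π ∘ f = 0 → i ∘ (r ∘ f) = f := by
    intro f hf
    funext g
    have : π (f g) = 0 := congrFun hf g
    simp only [Function.comp_apply, hir, this, map_zero, sub_zero]
  have hir2 : ∀ f : G × G → B, π ∘ f = 0 → i ∘ (r ∘ f) = f := by
    intro f hf
    funext g
    have : π (f g) = 0 := congrFun hf g
    simp only [Function.comp_apply, hir, this, map_zero, sub_zero]
  have hinj2 : ∀ f f' : G × G → A, i ∘ f = i ∘ f' → f = f' := by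
    intro f f' h
    funext g
    exact ses.inj (congrFun h g)
  have hZ2A : ∀ f : G × G → B, f ∈ Z2 𝒰 ρB → π ∘ f = 0 → r ∘ f ∈ Z2 𝒰 ρA := by
    intro f hf hπ
    refine ⟨LinearMap.mem_ker.2 ?_, comp_mem_C2 r hf.2⟩
    funext g
    apply ses.inj
    have h1 := congrFun (d23_comp i ses.i_equiv (r ∘ f)) g
    rw [hir2 f hπ, LinearMap.mem_ker.1 hf.1] at h1
    simpa using h1.symm
  -- the cochain `d (s ∘ c)`
  have hπd : ∀ c ∈ Z1 𝒰 ρC, π ∘ d12 ρB (s ∘ c) = 0 := by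
    intro c hc
    rw [← d12_comp π ses.π_equiv]
    have : π ∘ (s ∘ c) = c := funext fun g => hs (c g)
    rw [this, LinearMap.mem_ker.1 hc.1]
  have hdZ : ∀ c ∈ Z1 𝒰 ρC, d12 ρB (s ∘ c) ∈ Z2 𝒰 ρB := fun c hc =>
    B2_le_Z2 hB ⟨s ∘ c, comp_mem_C1 s hc.2, rfl⟩
  -- the connecting map
  let δ₀ : ↥(Z1 𝒰 ρC) →ₗ[k] ↥(Z2 𝒰 ρA) :=
    LinearMap.codRestrict (Z2 𝒰 ρA)
      ((r.compLeft (G × G) ∘ₗ d12 ρB ∘ₗ s.compLeft G).domRestrict (Z1 𝒰 ρC))
      (fun c => hZ2A _ (hdZ c.1 c.2) (hπd c.1 c.2))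
  let δ : ↥(Z1 𝒰 ρC) →ₗ[k] H2 𝒰 ρA := Submodule.mkQ _ ∘ₗ δ₀
  have hδ : ∀ c : ↥(Z1 𝒰 ρC), δ c = 0 ↔ r ∘ d12 ρB (s ∘ c.1) ∈ B2 𝒰 ρA := fun c =>
    LES.H2mk_eq_zero 𝒰 (δ₀ c)
  let iS := LES.H2map 𝒰 i ses.i_equiv
  let πS := LES.H2map 𝒰 π ses.π_equiv
  -- kernel of δ
  have hkerδ : LinearMap.ker δ = (imZ1 𝒰 ρB ρC π).submoduleOf (Z1 𝒰 ρC) := by
    ext c
    rw [LinearMap.mem_ker, hδ]
    show _ ↔ c.1 ∈ imZ1 𝒰 ρB ρC π
    rw [LES.imZ1_eq 𝒰 ses hB]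
    constructor
    · rintro ⟨f, hf, hfe⟩
      refine ⟨s ∘ c.1 - i ∘ f, ⟨LinearMap.mem_ker.2 ?_,
        Submodule.sub_mem _ (comp_mem_C1 s c.2.2) (comp_mem_C1 i hf)⟩, ?_⟩
      · rw [map_sub, d12_comp i ses.i_equiv, hfe, hir2 _ (hπd c.1 c.2), sub_self]
      · funext g
        simp [hs, LES.pi_i ses]
    · rintro ⟨b, hb, hbc⟩
      refine ⟨-(r ∘ b), Submodule.neg_mem _ (comp_mem_C1 r hb.2), ?_⟩
      apply hinj2
      rw [hir2 _ (hπd c.1 c.2), map_neg]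
      have h1 : s ∘ c.1 = b - i ∘ (r ∘ b) := by
        funext g
        have : c.1 g = π (b g) := (congrFun hbc g).symm
        simp only [Function.comp_apply, Pi.sub_apply, hir, this, sub_sub_cancel]
      rw [h1, map_sub, LinearMap.mem_ker.1 hb.1, zero_sub, d12_comp i ses.i_equiv]
      funext g
      simp
  -- exactness at `H^2(A)`
  have hexA : LinearMap.range δ = LinearMap.ker iS := by
    ext x
    constructor
    · rintro ⟨c, rfl⟩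
      rw [LinearMap.mem_ker]
      show LES.H2map 𝒰 i ses.i_equiv (Submodule.Quotient.mk (δ₀ c)) = 0
      rw [LES.H2map_mk, LES.H2mk_eq_zero]
      show i ∘ (r ∘ d12 ρB (s ∘ c.1)) ∈ B2 𝒰 ρB
      rw [hir2 _ (hπd c.1 c.2)]
      exact ⟨s ∘ c.1, comp_mem_C1 s c.2.2, rfl⟩
    · intro hx
      obtain ⟨a, rfl⟩ := Submodule.Quotient.mk_surjective _ x
      rw [LinearMap.mem_ker] at hx
      change LES.H2map 𝒰 i ses.i_equiv (Submodule.Quotient.mk a) = 0 at hx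
      rw [LES.H2map_mk, LES.H2mk_eq_zero] at hx
      obtain ⟨f, hf, hfe⟩ := hx
      change d12 ρB f = i ∘ a.1 at hfe
      have hc : π ∘ f ∈ Z1 𝒰 ρC := by
        refine ⟨LinearMap.mem_ker.2 ?_, comp_mem_C1 π hf⟩
        rw [d12_comp π ses.π_equiv, hfe]
        funext g
        exact LES.pi_i ses _
      refine ⟨⟨π ∘ f, hc⟩, ?_⟩
      show (Submodule.Quotient.mk (δ₀ ⟨π ∘ f, hc⟩) : H2 𝒰 ρA) = Submodule.Quotient.mk a
      rw [Submodule.Quotient.eq]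
      show r ∘ d12 ρB (s ∘ (π ∘ f)) - a.1 ∈ B2 𝒰 ρA
      refine ⟨-(r ∘ f), Submodule.neg_mem _ (comp_mem_C1 r hf), ?_⟩
      apply hinj2
      have h1 : s ∘ (π ∘ f) = f - i ∘ (r ∘ f) := by
        funext g
        simp only [Function.comp_apply, Pi.sub_apply, hir, sub_sub_cancel]
      have h2 : i ∘ (r ∘ d12 ρB (s ∘ (π ∘ f)) - a.1) =
          i ∘ (r ∘ d12 ρB (s ∘ (π ∘ f))) - i ∘ a.1 := by
        funext g
        simp
      rw [h2, hir2 _ (hπd _ hc), h1, map_sub, hfe, d12_comp i ses.i_equiv, map_neg]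
      funext g
      simp
  -- exactness at `H^2(B)`
  have hexB : LinearMap.range iS = LinearMap.ker πS := by
    ext x
    constructor
    · rintro ⟨y, rfl⟩
      obtain ⟨a, rfl⟩ := Submodule.Quotient.mk_surjective _ y
      rw [LinearMap.mem_ker]
      show LES.H2map 𝒰 π ses.π_equiv (LES.H2map 𝒰 i ses.i_equiv (Submodule.Quotient.mk a)) = 0
      rw [LES.H2map_mk, LES.H2map_mk, LES.H2mk_eq_zero]
      have : π ∘ (i ∘ a.1) = 0 := funext fun g => LES.pi_i ses _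
      show π ∘ (i ∘ a.1) ∈ B2 𝒰 ρC
      rw [this]
      exact Submodule.zero_mem _
    · intro hx
      obtain ⟨b, rfl⟩ := Submodule.Quotient.mk_surjective _ x
      rw [LinearMap.mem_ker] at hx
      change LES.H2map 𝒰 π ses.π_equiv (Submodule.Quotient.mk b) = 0 at hx
      rw [LES.H2map_mk, LES.H2mk_eq_zero] at hx
      obtain ⟨f, hf, hfe⟩ := hx
      change d12 ρC f = π ∘ b.1 at hfe
      have hsf : d12 ρB (s ∘ f) ∈ B2 𝒰 ρB := ⟨s ∘ f, comp_mem_C1 s hf, rfl⟩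
      have hb' : b.1 - d12 ρB (s ∘ f) ∈ Z2 𝒰 ρB := Submodule.sub_mem _ b.2 (B2_le_Z2 hB hsf)
      have hπb' : π ∘ (b.1 - d12 ρB (s ∘ f)) = 0 := by
        have h1 : π ∘ (b.1 - d12 ρB (s ∘ f)) = π ∘ b.1 - π ∘ d12 ρB (s ∘ f) := by
          funext g
          simp
        have h2 : π ∘ (s ∘ f) = f := funext fun g => hs (f g)
        rw [h1, ← d12_comp π ses.π_equiv, h2, hfe, sub_self]
      refine ⟨Submodule.Quotient.mk ⟨_, hZ2A _ hb' hπb'⟩, ?_⟩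
      show LES.H2map 𝒰 i ses.i_equiv (Submodule.Quotient.mk _) = _
      rw [LES.H2map_mk, Submodule.Quotient.eq]
      show i ∘ (r ∘ (b.1 - d12 ρB (s ∘ f))) - b.1 ∈ B2 𝒰 ρB
      rw [hir2 _ hπb', sub_sub_cancel_left]
      exact Submodule.neg_mem _ hsf
  have hπsurj : LinearMap.range πS = ⊤ := by
    rw [LinearMap.range_eq_top]
    intro x
    obtain ⟨c, rfl⟩ := Submodule.Quotient.mk_surjective _ x
    obtain ⟨b, hb, hbc⟩ := hsurj c.1 c.2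
    refine ⟨Submodule.Quotient.mk ⟨b, hb⟩, ?_⟩
    show LES.H2map 𝒰 π ses.π_equiv (Submodule.Quotient.mk _) = _
    rw [LES.H2map_mk, Submodule.Quotient.eq]
    exact hbc
  -- dimension count
  have e1 := LinearMap.finrank_range_add_finrank_ker δ
  have e2 := LinearMap.finrank_range_add_finrank_ker iS
  have e3 := LinearMap.finrank_range_add_finrank_ker πS
  have e4 : finrank k (H1 𝒰 ρC) + finrank k ↥(B1 ρC) = finrank k ↥(Z1 𝒰 ρC) :=
    LES.finrank_quot (B1_le_Z1 hC)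
  have e5 := LES.finrank_quot (LES.B1_le_imZ1 𝒰 (ρB := ρB) (ρC := ρC) (π := π))
  have e6 : finrank k ↥((imZ1 𝒰 ρB ρC π).submoduleOf (Z1 𝒰 ρC)) = finrank k ↥(imZ1 𝒰 ρB ρC π) :=
    (Submodule.submoduleOfEquivOfLe (LES.imZ1_le_Z1 𝒰 ses hC)).finrank_eq
  rw [hkerδ, hexA, e6] at e1
  rw [hexB] at e2
  rw [hπsurj, finrank_top] at e3
  omega

end Fermat.Agent.CFT
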