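import Fermat.Agent.CFT.W.RightExact
import Fermat.Agent.CFT.W.LES

/-!
# CFT / Part W : additivity of the Euler characteristic `χ(N) = h^0 - h^1 + h^2`.
-/

set_option autoImplicit false

namespace Fermat.Agent.CFT

open Module

variable {D : Datum} {k : Type} [Field k] {χ : D.G →* kˣ}
  {lam : ∀ v : D.ι, (D.Gv v × D.Gv v → k) →ₗ[k] k} {Φ : D.CC3 k →ₗ[k] k}

theorem eulerChar_additive (w : D.WCtx χ lam Φ) {A B C : Type} [AddCommGroup A] [Module k A]
    [AddCommGroup B] [Module k B] [AddCommGroup C] [Module k C] [FiniteDimensional k A]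
    [FiniteDimensional k B] [FiniteDimensional k C]
    {ρA : Representation k D.G A} {ρB : Representation k D.G B} {ρC : Representation k D.G C}
    {i : A →ₗ[k] B} {π : B →ₗ[k] C} (ses : IsSES ρA ρB ρC i π)
    (hA : IsSmooth D.lev ρA) (hB : IsSmooth D.lev ρB) (hC : IsSmooth D.lev ρC) :
    D.eulerChar ρB = D.eulerChar ρA + D.eulerChar ρC := by
  have := finite_H1 w.ctx hA
  have := finite_H1 w.ctx hB
  have := finite_H1 w.ctx hC
  have := (finite_H2 w.ctx hA).1
  have := (finite_H2 w.ctx hB).1
  have := (finite_H2 w.ctx hC).1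
  have h1 := LES.low D.lev ses hA hB hC
  have h2 := LES.high D.lev ses hA hB hC
    (fun c hc => H2_surjective_of_surjective w hB hC π ses.π_equiv ses.surj hc)
  unfold Datum.eulerChar
  omega

end Fermat.Agent.CFT
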