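import Fermat.Agent.CFT.W.NV.Restr
import Fermat.Agent.CFT.W.NV.Iso
import Fermat.Agent.CFT.W.NV.Nice
import Fermat.Agent.CFT.T.Main

/-! # CFT / Part W : instantiation at `DS S`, `k = ZMod p` (assembly; see NV/Defs.lean). -/

set_option autoImplicit false

open ExtCitation Module

namespace Fermat.Agent.CFT

variable {p : ℕ} [Fact p.Prime]

theorem locNV_of_nice (hp2 : p ≠ 2) (S : Finset Nat.Primes)
    (hpS : pPrime p ∈ S) {W : Subgroup GQ} (hW : NiceLevel p S W) :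
    (DS S).LocNV (ZMod p) W := by
  obtain ⟨R⟩ := (DS S).exists_restrData hW.mem
  obtain ⟨e⟩ := nonempty_iso_restr_DF S hW.mem R
  exact Datum.LocNV.of_restr (DS S) hW.mem R
    (Datum.NVTriv.of_iso e (nvTriv_of_nice hp2 S hpS hW _ (isPlaceSystem_restrPlace S hW.mem R)))

/-- every `Ctx` for `DS S` is a `WCtx` -/
theorem wctx_of_ctx (hp2 : p ≠ 2) (S : Finset Nat.Primes) (hpS : pPrime p ∈ S)
    {lam : ∀ v : (DS S).ι, ((DS S).Gv v × (DS S).Gv v → ZMod p) →ₗ[ZMod p] ZMod p}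
    {Φ : (DS S).CC3 (ZMod p) →ₗ[ZMod p] ZMod p} (ctx : (DS S).Ctx (cycloChar p) lam Φ) :
    (DS S).WCtx (cycloChar p) lam Φ where
  ctx := ctx
  ne := ⟨⟨pPrime p, hpS⟩⟩
  good2 := fun U hU => by
    obtain ⟨W, hWU, hW⟩ := exists_nice hp2 S hpS hU
    exact ⟨W, hW.mem, hWU, goodLevel_of_nice hp2 S hpS hW, locNV_of_nice hp2 S hpS hW⟩

theorem exists_wctx_DS (hp2 : p ≠ 2) (S : Finset Nat.Primes) (hpS : pPrime p ∈ S) :
    ∃ (lam : ∀ v : (DS S).ι, ((DS S).Gv v × (DS S).Gv v → ZMod p) →ₗ[ZMod p] ZMod p)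
      (Φ : (DS S).CC3 (ZMod p) →ₗ[ZMod p] ZMod p), (DS S).WCtx (cycloChar p) lam Φ := by
  obtain ⟨lam, Φ, ctx⟩ := (ptHyp hp2 S hpS).exists_ctx
  exact ⟨lam, Φ, wctx_of_ctx hp2 S hpS ctx⟩

end Fermat.Agent.CFT
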