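import Fermat.Agent.CFT.W.EulerPerm
import Fermat.Agent.CFT.W.Inst

/-!
# CFT / Part W, WP W-NICE : `2 χ(G_S, F_p[G/W]) = -[L:ℚ]` for a nice level `W` (`L = Qb^W`).

`R : (DS S).RestrData W`, `D' = DF S W (restrPlace S R)`, `s = #ι' = ∑_v #(R.O v)`, `n = W.index`.
By `two_mul_eulerChar_permRep` it suffices to show `∑_v h^1_v(P) = 2 s + n` and `∑_v h^0_v(P) = s`
(`Datum.finrank_invariants_loc_permRep`).
`≤` : TG5 `locH1_of_nice` transported (`locH1_restr`, F/Shapiro/Main.lean; T/Iso.lean `H1_iso` for the local groups).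
`≥` : TG6 `num_of_nice`: `2 s + n + 2 sha^2(D') ≤ 2 h^1(D')`, transported (`H1_restr`, `Sha2_restr`, `H1_iso`, `Sha2_iso`), and
      `two_mul_finrank_H1_permRep`: `2 h^1(P) = ∑_v h^1_v(P) + 2 sha^2(P)`.
-/

set_option autoImplicit false

open ExtCitation Module

namespace Fermat.Agent.CFT

variable {p : ℕ} [Fact p.Prime]

theorem adapted2_of_nice (hp2 : p ≠ 2) (S : Finset Nat.Primes) (hpS : pPrime p ∈ S)
    {W : Subgroup GQ} (hW : NiceLevel p S W) :
    (DS S).Adapted2 (cycloChar p) (1 : Representation (ZMod p) GQ (ZMod p)) W where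
  ad :=
    { mem := hW.mem
      good := goodLevel_of_nice hp2 S hpS hW
      triv := fun _ _ _ => rfl
      chi := hW.mu }
  nv := locNV_of_nice hp2 S hpS hW

/-- transport of the three numbers `h^1`, `sha^2`, `∑ h^1_v` from `k[G/W]` over `D` to the trivial
module over an isomorphic copy `D'` of `D.restr`. -/
theorem Datum.finrank_permRep_of_iso (D : Datum) {k : Type} [Field k] {W : Subgroup D.G}
    (hW : W ∈ D.lev.carrier) (R : D.RestrData W) {D' : Datum} (e : (D.restr hW R).Iso D')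
    (h : D'.GoodTriv k) :
    finrank k (H1 D.lev (permRep k W)) = finrank k (H1 D'.lev (1 : Representation k D'.G k)) ∧
    finrank k (D.Sha2 (permRep k W)) = finrank k (D'.Sha2 (1 : Representation k D'.G k)) ∧
    (∑ v, finrank k (H1 (D.levv v) (D.loc (permRep k W) v))) =
      ∑ v', finrank k (H1 (D'.levv v') (D'.loc (1 : Representation k D'.G k) v')) := by
  have h₁ : (D.restr hW R).GoodTriv k := Datum.GoodTriv.of_iso e h
  obtain ⟨eH1⟩ := D.H1_restr hW R k
  obtain ⟨eSha2⟩ := D.Sha2_restr hW R k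
  have eLoc := fun v => D.locH1_restr hW R k v
  obtain ⟨eH1'⟩ := IsoAux.H1_iso (k := k) e.eG e.lev_le e.lev_ge
  have eL : ∀ v, Nonempty (H1 ((D.restr hW R).levv v)
      ((D.restr hW R).loc (1 : Representation k (D.restr hW R).G k) v) ≃ₗ[k]
      H1 (D'.levv (e.eι v)) (D'.loc (1 : Representation k D'.G k) (e.eι v))) := fun v =>
    IsoAux.H1_iso (k := k) (e.ev v) (e.levv_le v) (e.levv_ge v)
  obtain ⟨eS⟩ := IsoAux.Sha2_iso (k := k) e
  have hloc : ∀ v, finrank k (H1 (D.levv v) (D.loc (permRep k W) v))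
      = ∑ o : R.O v, finrank k (H1 ((D.restr hW R).levv ⟨v, o⟩)
          ((D.restr hW R).loc (D.one' hW R k) ⟨v, o⟩)) := by
    intro v
    obtain ⟨e⟩ := eLoc v
    rw [e.finrank_eq]
    exact Shapiro.finrank_pi' (M := fun o : R.O v => H1 ((D.restr hW R).levv ⟨v, o⟩)
      ((D.restr hW R).loc (D.one' hW R k) ⟨v, o⟩)) fun o => h₁.finLoc1 ⟨v, o⟩
  refine ⟨eH1.finrank_eq.trans eH1'.finrank_eq, eSha2.finrank_eq.trans eS.finrank_eq, ?_⟩
  simp only [hloc]
  rw [← Fintype.sum_sigma']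
  rw [← Equiv.sum_comp e.eι (fun v' => finrank k (H1 (D'.levv v')
        (D'.loc (1 : Representation k D'.G k) v')))]
  exact Finset.sum_congr rfl (fun v _ => (eL v).some.finrank_eq)

theorem two_mul_eulerChar_nice (hp2 : p ≠ 2) (S : Finset Nat.Primes) (hpS : pPrime p ∈ S)
    {W : Subgroup GQ} (hW : NiceLevel p S W) :
    2 * (DS S).eulerChar (permRep (ZMod p) W) = -(W.index : ℤ) := by
  classical
  obtain ⟨lam, Φ, w⟩ := exists_wctx_DS hp2 S hpS
  have hU := adapted2_of_nice hp2 S hpS hW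
  obtain ⟨R⟩ := (DS S).exists_restrData hW.mem
  obtain ⟨e⟩ := nonempty_iso_restr_DF S hW.mem R
  have hA := isPlaceSystem_restrPlace S hW.mem R
  have h1 := (locH1_of_nice hp2 S hpS hW _ hA).2
  have h2 := (num_of_nice hp2 S hpS hW _ hA).2.2
  obtain ⟨E1, E2, E3⟩ := (DS S).finrank_permRep_of_iso hW.mem R e
    (goodTriv_of_nice hp2 S hpS hW _ hA)
  have T := two_mul_finrank_H1_permRep w hU
  have E4 : (∑ v, finrank (ZMod p) ↥((DS S).loc (permRep (ZMod p) W) v).invariants) =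
      Fintype.card (Σ q : ↥S, R.O q) := by
    rw [Fintype.card_sigma]
    exact Finset.sum_congr rfl fun v _ => (DS S).finrank_invariants_loc_permRep hW.mem R v
  rw [two_mul_eulerChar_permRep w hU]
  have h1' : (∑ v, finrank (ZMod p) (H1 ((DS S).levv v) ((DS S).loc (permRep (ZMod p) W) v))) ≤
      2 * Fintype.card (Σ q : ↥S, R.O q) + W.index := by
    rw [E3]; exact h1
  have h2' : 2 * Fintype.card (Σ q : ↥S, R.O q) + W.index +
      2 * finrank (ZMod p) ((DS S).Sha2 (permRep (ZMod p) W)) ≤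
      2 * finrank (ZMod p) (H1 (DS S).lev (permRep (ZMod p) W)) := by
    rw [E1, E2]; exact h2
  have h3 : (∑ v, finrank (ZMod p) (H1 ((DS S).levv v) ((DS S).loc (permRep (ZMod p) W) v))) =
      2 * Fintype.card (Σ q : ↥S, R.O q) + W.index := by omega
  have h3' : (∑ v, (finrank (ZMod p) (H1 ((DS S).levv v)
      ((DS S).loc (permRep (ZMod p) W) v)) : ℤ)) =
      2 * (Fintype.card (Σ q : ↥S, R.O q) : ℤ) + W.index := by exact_mod_cast h3
  have E4' : (∑ v, (finrank (ZMod p) ↥((DS S).loc (permRep (ZMod p) W) v).invariants : ℤ)) =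
      (Fintype.card (Σ q : ↥S, R.O q) : ℤ) := by exact_mod_cast E4
  rw [h3', E4']
  ring

end Fermat.Agent.CFT
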