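import Fermat.Agent.CFT.W.Defs

/-!
# CFT / Part W, WP W-TR : transport of `H2`, local `H2` and invariants along `IsoRep` and `piRep`
(copy the patterns of F/Transport.lean: `quot_iso`, `quot_pi`, `IsoRep.H1`, `H1_piRep`).
-/

set_option autoImplicit false

namespace Fermat.Agent.CFT

open Module

variable {k : Type} [Field k] {G : Type} [Group G] (𝒰 : Levels G)
  {V W : Type} [AddCommGroup V] [Module k V] [AddCommGroup W] [Module k W]
  {ρ : Representation k G V} {σ : Representation k G W}

open Transport in
theorem IsoRep.H2' (h : IsoRep ρ σ) : Nonempty (H2 𝒰 ρ ≃ₗ[k] H2 𝒰 σ) := by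
  obtain ⟨e, he⟩ := h
  have he' : ∀ g w, e.symm (σ g w) = ρ g (e.symm w) := by
    intro g w
    apply e.injective
    rw [he, e.apply_symm_apply, e.apply_symm_apply]
  exact quot_iso (e.toLinearMap.compLeft (G × G)) (e.symm.toLinearMap.compLeft (G × G))
    (fun a => funext fun g => e.symm_apply_apply _) (fun a => funext fun g => e.apply_symm_apply _)
    (fun _ ha => comp_mem_Z2 e.toLinearMap he ha) (fun _ ha => comp_mem_Z2 e.symm.toLinearMap he' ha)
    (fun _ ha => comp_mem_B2 e.toLinearMap he ha) (fun _ ha => comp_mem_B2 e.symm.toLinearMap he' ha)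

open Transport in
theorem H2_piRep' (ρ : Representation k G V) (n : ℕ) :
    Nonempty (H2 𝒰 (piRep n ρ) ≃ₗ[k] (Fin n → H2 𝒰 ρ)) := by
  refine quot_pi (fun j => (LinearMap.proj j : (Fin n → V) →ₗ[k] V).compLeft (G × G))
    (fun j => (LinearMap.single k (fun _ : Fin n => V) j).compLeft (G × G))
    (fun a => funext fun g => ?_) (fun j j' a => funext fun g => ?_)
    (fun j _ ha => comp_mem_Z2 _ (proj_equiv ρ n j) ha)
    (fun j _ ha => comp_mem_Z2 _ (single_equiv ρ n j) ha)
    (fun j _ ha => comp_mem_B2 _ (proj_equiv ρ n j) ha)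
    (fun j _ ha => comp_mem_B2 _ (single_equiv ρ n j) ha)
  · rw [Finset.sum_apply]; exact sum_single_proj (k := k) n (a g)
  · refine (proj_single (k := k) n j j' (a g)).trans ?_
    split_ifs <;> rfl

theorem IsoRep.invariants' (h : IsoRep ρ σ) : Nonempty (↥ρ.invariants ≃ₗ[k] ↥σ.invariants) := by
  obtain ⟨e, he⟩ := h
  have he' : ∀ g w, e.symm (σ g w) = ρ g (e.symm w) := by
    intro g w
    apply e.injective
    rw [he, e.apply_symm_apply, e.apply_symm_apply]
  exact ⟨{ toFun := fun x => ⟨e x, fun g => by rw [← he, x.2 g]⟩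
           invFun := fun x => ⟨e.symm x, fun g => by rw [← he', x.2 g]⟩
           map_add' := fun a b => Subtype.ext (by simp)
           map_smul' := fun c a => Subtype.ext (by simp)
           left_inv := fun a => Subtype.ext (e.symm_apply_apply _)
           right_inv := fun a => Subtype.ext (e.apply_symm_apply _) }⟩

theorem invariants_piRep' (ρ : Representation k G V) (n : ℕ) :
    Nonempty (↥(piRep n ρ).invariants ≃ₗ[k] (Fin n → ↥ρ.invariants)) := by
  exact ⟨{ toFun := fun x j => ⟨(x : Fin n → V) j, fun g => congrFun (x.2 g) j⟩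
           invFun := fun x => ⟨fun j => (x j : V), fun g => funext fun j => (x j).2 g⟩
           map_add' := fun a b => rfl
           map_smul' := fun c a => rfl
           left_inv := fun a => rfl
           right_inv := fun a => rfl }⟩

theorem IsoRep.comp' {H : Type} [Group H] (h : IsoRep ρ σ) (r : H →* G) :
    IsoRep (ρ.comp r) (σ.comp r) := by
  obtain ⟨e, he⟩ := h
  exact ⟨e, fun g v => he (r g) v⟩

theorem piRep_comp' {H : Type} [Group H] (ρ : Representation k G V) (n : ℕ) (r : H →* G) :
    (piRep n ρ).comp r = piRep n (ρ.comp r) := rfl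

end Fermat.Agent.CFT
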