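import Fermat.Agent.CFT.W.Phi2
import Fermat.Agent.CFT.W.Transport2

/-!
# CFT / Part W, WP W-EP : the Euler characteristic of `P = k[G/U]` at an adapted level with (LN).

`P = permRep k U = mapRep U 1`, `P' = P.dual.twist χ ≅ piRep 1 P` (`isoRep_mapRep_dualTwist`, `n = finrank k k = 1`).
(i)   `h^0(P) = h^0(P') = 1` (`finrank_invariants_mapRep`), `h^0_v(P') = h^0_v(P)`;
(ii)  `h^2(P) + 1 = sha^2(P) + ∑_v h^0_v(P)` (`finrank_H2`, `sha^1(P') = sha^2(P)`: `sha1_le`, `sha2_le` of F/Final.lean);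
(iii) `2 h^1(P) = ∑_v h^1_v(P) + 2 sha^2(P)`: `≥` is `GoodLevel.ineq'`; `≤`: `h^1(P) ≤ hc^2(P')` by `inj1`
      (pattern `sha1_le_aux`, F/ShaLe.lean), `hc^2(P') = coker^1(P') + sha^2(P')` (`finrank_HC2`),
      `coker^1 = ∑_v h^1_v - (h^1 - sha^1)` (`finrank_Coker1`, F/ShaLe.lean), `sha^1(P) = sha^2(P') = sha^2(P)`.
-/

set_option autoImplicit false

namespace Fermat.Agent.CFT

open Module

variable {D : Datum} {k : Type} [Field k] {χ : D.G →* kˣ}
  {lam : ∀ v : D.ι, (D.Gv v × D.Gv v → k) →ₗ[k] k} {Φ : D.CC3 k →ₗ[k] k}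

/-- `sha^1(N') = sha^2(N)` in a context. -/
theorem finrank_Sha1_dualTwist (ctx : D.Ctx χ lam Φ) {N : Type} [AddCommGroup N] [Module k N]
    [FiniteDimensional k N] {ρ : Representation k D.G N} (hρ : IsSmooth D.lev ρ) :
    finrank k (D.Sha1 (ρ.dual.twist χ)) = finrank k (D.Sha2 ρ) := by
  have hρ' : IsSmooth D.lev (ρ.dual.twist χ) := hρ.dualTwist ctx.chi_smooth
  refine le_antisymm ?_ (sha2_le ctx hρ).2
  obtain ⟨e⟩ := (isoRep_dualTwist_dualTwist ρ χ).Sha2 (D := D)
  exact (sha1_le ctx hρ').trans_eq e.finrank_eq.symm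

theorem two_mul_finrank_H1_permRep (w : D.WCtx χ lam Φ) {U : Subgroup D.G}
    (hU : D.Adapted2 χ (1 : Representation k D.G k) U) :
    2 * finrank k (H1 D.lev (permRep k U)) =
      (∑ v, finrank k (H1 (D.levv v) (D.loc (permRep k U) v))) +
        2 * finrank k (D.Sha2 (permRep k U)) := by
  have ctx := w.ctx
  have hA := hU.ad
  have : U.Normal := D.lev.normal U hA.mem
  have : U.FiniteIndex := D.lev.finiteIndex U hA.mem
  have := hA.good.finH1
  have := hA.good.finLoc1
  have := hA.good.finSha2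
  have hsm : IsSmooth D.lev (permRep k U) := (isSmooth_one D.lev).mapRep hA.mem
  have hsm' : IsSmooth D.lev ((permRep k U).dual.twist χ) := hsm.dualTwist ctx.chi_smooth
  have iso' : IsoRep ((permRep k U).dual.twist χ) (piRep (finrank k k) (permRep k U)) :=
    isoRep_mapRep_dualTwist (ρ := (1 : Representation k D.G k)) (fun _ _ _ => rfl) hA.chi
  obtain ⟨hfc, -⟩ := coker1_bound ctx hA.mem hA.good hA.chi
  obtain ⟨e1⟩ := iso'.Coker1 (D := D)
  obtain ⟨e1'⟩ := Coker1_piRep (D := D) (ρ := permRep k U) (finrank k k)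
  obtain ⟨e2⟩ := iso'.Sha2 (D := D)
  obtain ⟨e2'⟩ := Sha2_piRep (D := D) (ρ := permRep k U) (finrank k k)
  have : Module.Finite k (D.Coker1 ((permRep k U).dual.twist χ)) :=
    Module.Finite.equiv (e1.trans e1').symm
  have : Module.Finite k (D.Sha2 ((permRep k U).dual.twist χ)) :=
    Module.Finite.equiv (e2.trans e2').symm
  have hC : finrank k (D.Coker1 ((permRep k U).dual.twist χ)) =
      finrank k (D.Coker1 (permRep k U)) := by
    rw [(e1.trans e1').finrank_eq, LinAlg.finrank_fin_pi, finrank_self, one_mul]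
  have hS : finrank k (D.Sha2 ((permRep k U).dual.twist χ)) = finrank k (D.Sha2 (permRep k U)) := by
    rw [(e2.trans e2').finrank_eq, LinAlg.finrank_fin_pi, finrank_self, one_mul]
  have : Module.Finite k (D.HC2 ((permRep k U).dual.twist χ)) := finite_HC2 hsm'
  have hβ := isEquivPairing_evalP (permRep k U) χ
  -- `h^1(P) ≤ hc^2(P')`
  have key := finrank_quot_le_of_pairing (Z1 D.lev (permRep k U)) (B1 (permRep k U))
    (D.ZC2 ((permRep k U).dual.twist χ)) (D.BC2 ((permRep k U).dual.twist χ))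
    (D.pair12 ((permRep k U).dual.twist χ) (evalP k (D.G ⧸ U → k)) Φ)
    (fun a ha _ c hc => ctx.inv.bdry _ (ccup12_mem_BC3_of_B1 hβ ha hc))
    (fun a ha c hc _ => ctx.inv.bdry _ (ccup12_mem_BC3_of_BC2 hβ hsm' ha hc))
    (fun a ha h => inj1 ctx hsm ha h)
  have h1 : finrank k (H1 D.lev (permRep k U)) ≤
      finrank k (D.Coker1 (permRep k U)) + finrank k (D.Sha2 (permRep k U)) := by
    have h5 : finrank k (H1 D.lev (permRep k U)) ≤
        finrank k (D.HC2 ((permRep k U).dual.twist χ)) := key.2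
    rw [finrank_HC2 hsm', hC, hS] at h5
    exact h5
  have h2 : finrank k (D.Sha1 (permRep k U)) ≤ finrank k (D.Sha2 (permRep k U)) :=
    (sha1_le ctx hsm).trans_eq hS
  obtain ⟨-, h3⟩ := finrank_Coker1 (D := D) (permRep k U)
  have h4 := hA.good.ineq'
  omega

theorem finrank_invariants_permRep (D : Datum) (k : Type) [Field k] {U : Subgroup D.G}
    (hU : U ∈ D.lev.carrier) : finrank k ↥(permRep k U).invariants = 1 := by
  have : U.Normal := D.lev.normal U hU
  rw [finrank_invariants_mapRep (ρ := (1 : Representation k D.G k)) (U := U) (fun _ _ _ => rfl),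
    finrank_self]

theorem finrank_H2_permRep (w : D.WCtx χ lam Φ) {U : Subgroup D.G}
    (hU : D.Adapted2 χ (1 : Representation k D.G k) U) :
    finrank k (H2 D.lev (permRep k U)) + 1 =
      finrank k (D.Sha2 (permRep k U)) + ∑ v, finrank k ↥(D.loc (permRep k U) v).invariants := by
  have ctx := w.ctx
  have hA := hU.ad
  have : U.Normal := D.lev.normal U hA.mem
  have : U.FiniteIndex := D.lev.finiteIndex U hA.mem
  have hsm : IsSmooth D.lev (permRep k U) := (isSmooth_one D.lev).mapRep hA.mem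
  have iso' : IsoRep ((permRep k U).dual.twist χ) (piRep (finrank k k) (permRep k U)) :=
    isoRep_mapRep_dualTwist (ρ := (1 : Representation k D.G k)) (fun _ _ _ => rfl) hA.chi
  have h := finrank_H2 w hsm
  have hInvG : finrank k ↥((permRep k U).dual.twist χ).invariants = 1 := by
    obtain ⟨e1⟩ := iso'.invariants'
    obtain ⟨e2⟩ := invariants_piRep' (permRep k U) (finrank k k)
    rw [(e1.trans e2).finrank_eq, LinAlg.finrank_fin_pi, finrank_invariants_permRep D k hA.mem,
      finrank_self]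
  have hInv : ∀ v, finrank k ↥(D.loc ((permRep k U).dual.twist χ) v).invariants =
      finrank k ↥(D.loc (permRep k U) v).invariants := fun v => by
    obtain ⟨e1⟩ := (iso'.comp' (D.r v)).invariants'
    obtain ⟨e2⟩ := invariants_piRep' (D.loc (permRep k U) v) (finrank k k)
    rw [(e1.trans e2).finrank_eq, LinAlg.finrank_fin_pi, finrank_self, one_mul]
  rw [hInvG, finrank_Sha1_dualTwist ctx hsm, Finset.sum_congr rfl (fun v _ => hInv v)] at h
  exact h

theorem two_mul_eulerChar_permRep (w : D.WCtx χ lam Φ) {U : Subgroup D.G}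
    (hU : D.Adapted2 χ (1 : Representation k D.G k) U) :
    2 * D.eulerChar (permRep k U) =
      2 * (∑ v, (finrank k ↥(D.loc (permRep k U) v).invariants : ℤ)) -
        ∑ v, (finrank k (H1 (D.levv v) (D.loc (permRep k U) v)) : ℤ) := by
  have h1 := two_mul_finrank_H1_permRep w hU
  have h2 := finrank_H2_permRep w hU
  have h3 := finrank_invariants_permRep D k hU.ad.mem
  unfold Datum.eulerChar
  zify at h1 h2 h3
  linarith

end Fermat.Agent.CFT
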