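import Fermat.Agent.CFT.W.Ind

/-!
# CFT / Part W, WP W-PHI2 : `φ^2(N) : H^2(G,N) → H^1_c(N')^*` is bijective for ALL `N`.

Use the QUOTIENT presentation `s := mapRepSum U : I = mapRep U ρ ->> N` (equivariant: see the computation in
T/Recip.lean `hsum`), `U` adapted + (LN).  `s^* : N^* → I^*` (`LinearMap.dualMap`) is injective and equivariant
for the twisted duals (`dualMap_twist_equiv`, F/Adj.lean).
(1) `push1 s^* : CC1 N^* → CC1 I^*` maps `ZC1 → ZC1`, `BC1 → BC1` (`push1_mem_ZC1`, F/Adj.lean) and REFLECTS `BC1`: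
    if `push1 s^* (f,(y_v)) = dc0 x = (d01 x, (x)_v)` then `x = s^* y_v` (`ι` nonempty), so `y_v = y` for all `v` and
    `f = d01 y` (injectivity of `s^*`).
(2) So a functional `u` on `CC1 N^*` killing `BC1 N'` can be written on `ZC1 N'` as `ũ ∘ push1 s^*`, `ũ` a functional on
    `CC1 I^*` killing `BC1 I'` (linear algebra: `LinAlg.exists_extend_functional`, F/LinAlg.lean, or by hand).
(3) `ũ = Φ (a_I ∪ ·)` (`phi2_surjective_mapRep`), `a := s ∘ a_I ∈ Z2 N` (`comp_mem_Z2`) and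
    `Φ ((s ∘ a_I) ∪ c) = Φ (a_I ∪ push1 s^* c)` (`ccup21_natural`, F/Adj.lean).
COROLLARIES: `h^2(N) = hc^1(N')`, hence the formula; `H^2(I) → H^2(N)` is onto (apply (2),(3) to `u = Φ (c ∪ ·)`, then `inj2`).
-/

set_option autoImplicit false

namespace Fermat.Agent.CFT

open Module

variable {D : Datum} {k : Type} [Field k] {χ : D.G →* kˣ}
  {lam : ∀ v : D.ι, (D.Gv v × D.Gv v → k) →ₗ[k] k} {Φ : D.CC3 k →ₗ[k] k}

/-- the sum map is equivariant -/
theorem mapRepSum_equiv_w {G : Type} [Group G] {N : Type} [AddCommGroup N] [Module k N]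
    (ρ : Representation k G N) (U : Subgroup G) [Fintype (G ⧸ U)] (g : G) (F : G ⧸ U → N) :
    mapRepSum (k := k) U (mapRep U ρ g F) = ρ g (mapRepSum (k := k) U F) := by
  simp only [mapRepSum, LinearMap.coe_mk, AddHom.coe_mk, mapRep_apply, map_sum]
  exact Fintype.sum_equiv (MulAction.toPerm g⁻¹) _ _ (fun x => rfl)

/-- the sum map is surjective -/
theorem mapRepSum_surjective_w {G : Type} [Group G] {N : Type} [AddCommGroup N] [Module k N]
    (U : Subgroup G) [Fintype (G ⧸ U)] : Function.Surjective (mapRepSum (k := k) (V := N) U) := by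
  classical
  intro n
  refine ⟨Pi.single ((1 : G) : G ⧸ U) n, ?_⟩
  simp [mapRepSum]

/-- `push1` along an injective equivariant map reflects cone coboundaries (`ι` nonempty). -/
theorem mem_BC1_of_push1_mem_BC1 (ne : Nonempty D.ι) {V W : Type} [AddCommGroup V] [Module k V]
    [AddCommGroup W] [Module k W] {ρ : Representation k D.G V} {σ : Representation k D.G W}
    (f : V →ₗ[k] W) (hf : ∀ g v, f (ρ g v) = σ g (f v)) (hinj : Function.Injective f)
    {c : D.CC1 V} (hc : D.push1 f c ∈ D.BC1 σ) : c ∈ D.BC1 ρ := by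
  obtain ⟨x, hx⟩ := hc
  obtain ⟨v₀⟩ := ne
  rw [Datum.dc0_apply] at hx
  have h1 : ∀ g, σ g x - x = f (c.1 g) := fun g => congrFun (congrArg Prod.fst hx) g
  have h2 : ∀ v, x = f (c.2 v) := fun v => congrFun (congrArg Prod.snd hx) v
  refine ⟨c.2 v₀, ?_⟩
  rw [Datum.dc0_apply]
  refine Prod.ext ?_ ?_
  · funext g
    apply hinj
    change f (ρ g (c.2 v₀) - c.2 v₀) = f (c.1 g)
    rw [← h1 g, map_sub, hf, ← h2 v₀]
  · funext v
    apply hinj
    change f (c.2 v₀) = f (c.2 v)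
    rw [← h2 v, ← h2 v₀]

/-- the precise form: the representing cocycle comes from `mapRep U ρ` -/
theorem phi2_surjective_aux (w : D.WCtx χ lam Φ) {N : Type} [AddCommGroup N] [Module k N]
    [FiniteDimensional k N] {ρ : Representation k D.G N} (hρ : IsSmooth D.lev ρ)
    {U : Subgroup D.G} (hU : D.Adapted2 χ ρ U) [Fintype (D.G ⧸ U)]
    (u : D.CC1 (Module.Dual k N) →ₗ[k] k) (hu : ∀ c ∈ D.BC1 (ρ.dual.twist χ), u c = 0) :
    ∃ a ∈ Z2 D.lev (mapRep U ρ), ∀ c ∈ D.ZC1 (ρ.dual.twist χ),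
      u c = Φ (D.ccup21 (ρ.dual.twist χ) (evalP k N) (fun g => mapRepSum (k := k) U (a g)) c) := by
  set s : (D.G ⧸ U → N) →ₗ[k] N := mapRepSum (k := k) U with hs
  have hseq : ∀ g F, s (mapRep U ρ g F) = ρ g (s F) := mapRepSum_equiv_w ρ U
  have hsd : ∀ g n, s.dualMap ((ρ.dual.twist χ) g n) =
      ((mapRep U ρ).dual.twist χ) g (s.dualMap n) := dualMap_twist_equiv hseq
  have hinj : Function.Injective s.dualMap :=
    LinearMap.dualMap_injective_of_surjective (mapRepSum_surjective_w U)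
  obtain ⟨u', hu'B, hu'⟩ := LinAlg.exists_extend_functional (D.push1L s.dualMap)
    (D.ZC1 (ρ.dual.twist χ)) (D.BC1 ((mapRep U ρ).dual.twist χ)) u
    (fun e _ he => hu e (mem_BC1_of_push1_mem_BC1 w.ne s.dualMap hsd hinj he))
  obtain ⟨a, ha, hau⟩ := phi2_surjective_mapRep w hρ hU u' hu'B
  refine ⟨a, ha, fun c hc => ?_⟩
  rw [← hu' c hc, Datum.push1L_apply, hau _ (push1_mem_ZC1 s.dualMap hsd hc)]
  exact congrArg Φ (ccup21_natural hseq a c).symm

theorem phi2_surjective (w : D.WCtx χ lam Φ) {N : Type} [AddCommGroup N] [Module k N]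
    [FiniteDimensional k N] {ρ : Representation k D.G N} (hρ : IsSmooth D.lev ρ)
    (u : D.CC1 (Module.Dual k N) →ₗ[k] k) (hu : ∀ c ∈ D.BC1 (ρ.dual.twist χ), u c = 0) :
    ∃ a ∈ Z2 D.lev ρ, ∀ c ∈ D.ZC1 (ρ.dual.twist χ),
      u c = Φ (D.ccup21 (ρ.dual.twist χ) (evalP k N) a c) := by
  obtain ⟨U₀, hU₀⟩ := D.lev.nonempty
  obtain ⟨U, -, hU⟩ := exists_adapted2 w hρ hU₀
  have : U.FiniteIndex := D.lev.finiteIndex U hU.ad.mem
  have : Fintype (D.G ⧸ U) := Fintype.ofFinite _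
  obtain ⟨a, ha, hau⟩ := phi2_surjective_aux w hρ hU u hu
  exact ⟨fun g => mapRepSum (k := k) U (a g),
    comp_mem_Z2 (mapRepSum (k := k) U) (mapRepSum_equiv_w ρ U) ha, hau⟩

/-- `H^2(G, Map(G/U,N)) → H^2(G,N)` (sum map = corestriction) is onto -/
theorem H2_mapRepSum_surjective (w : D.WCtx χ lam Φ) {N : Type} [AddCommGroup N] [Module k N]
    [FiniteDimensional k N] {ρ : Representation k D.G N} (hρ : IsSmooth D.lev ρ)
    {U : Subgroup D.G} (hU : D.Adapted2 χ ρ U) [Fintype (D.G ⧸ U)]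
    {c : D.G × D.G → N} (hc : c ∈ Z2 D.lev ρ) :
    ∃ a ∈ Z2 D.lev (mapRep U ρ), (fun g => mapRepSum (k := k) U (a g)) - c ∈ B2 D.lev ρ := by
  have hρ' : IsSmooth D.lev (ρ.dual.twist χ) := hρ.dualTwist w.ctx.chi_smooth
  obtain ⟨a, ha, hau⟩ := phi2_surjective_aux w hρ hU
    (D.pair21 (ρ.dual.twist χ) (evalP k N) Φ c)
    (fun e he => w.ctx.inv.bdry _
      (ccup21_mem_BC3_of_BC1 (isEquivPairing_evalP ρ χ) hρ' hc he))
  have haZ : (fun g => mapRepSum (k := k) U (a g)) ∈ Z2 D.lev ρ :=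
    comp_mem_Z2 (mapRepSum (k := k) U) (mapRepSum_equiv_w ρ U) ha
  refine ⟨a, ha, inj2 w.ctx hρ (sub_mem haZ hc) fun e he => ?_⟩
  have h1 := hau e he
  rw [Datum.pair21_apply] at h1
  rw [← Datum.pair21_apply, map_sub, LinearMap.sub_apply, Datum.pair21_apply, Datum.pair21_apply,
    h1, sub_self]

theorem finrank_H2_eq_HC1 (w : D.WCtx χ lam Φ) {N : Type} [AddCommGroup N] [Module k N]
    [FiniteDimensional k N] {ρ : Representation k D.G N} (hρ : IsSmooth D.lev ρ) :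
    finrank k (H2 D.lev ρ) = finrank k (D.HC1 (ρ.dual.twist χ)) := by
  have hρ' : IsSmooth D.lev (ρ.dual.twist χ) := hρ.dualTwist w.ctx.chi_smooth
  obtain ⟨hfin, hle⟩ := finite_H2 w.ctx hρ
  refine le_antisymm hle ?_
  have key := finrank_quot_le_of_pairing (D.ZC1 (ρ.dual.twist χ)) (D.BC1 (ρ.dual.twist χ))
    (Z2 D.lev ρ) (B2 D.lev ρ) (D.pair21 (ρ.dual.twist χ) (evalP k N) Φ).flip
    (fun c hc _ a ha => w.ctx.inv.bdry _
      (ccup21_mem_BC3_of_BC1 (isEquivPairing_evalP ρ χ) hρ' ha hc))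
    (fun c hc a ha _ => w.ctx.inv.bdry _
      (ccup21_mem_BC3_of_B2 (isEquivPairing_evalP ρ χ) hρ' ha hc))
    (fun c hc h => by
      by_contra hcB
      obtain ⟨u, hu1, hu2⟩ := Submodule.exists_dual_map_eq_bot_of_notMem hcB inferInstance
      obtain ⟨a, ha, hau⟩ := phi2_surjective w hρ u (fun e he => by
        have : u e ∈ (D.BC1 (ρ.dual.twist χ)).map u := ⟨e, he, rfl⟩
        rw [hu2] at this
        exact this)
      apply hu1
      rw [hau c hc]
      exact h a ha)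
  exact key.2

/-- **(D2)** `h^2(N) + h^0(N') = sha^1(N') + ∑_v h^0_v(N')`. -/
theorem finrank_H2 (w : D.WCtx χ lam Φ) {N : Type} [AddCommGroup N] [Module k N]
    [FiniteDimensional k N] {ρ : Representation k D.G N} (hρ : IsSmooth D.lev ρ) :
    finrank k (H2 D.lev ρ) + finrank k ↥(ρ.dual.twist χ).invariants =
      finrank k (D.Sha1 (ρ.dual.twist χ)) + ∑ v, finrank k ↥(D.loc (ρ.dual.twist χ) v).invariants := by
  have hρ' : IsSmooth D.lev (ρ.dual.twist χ) := hρ.dualTwist w.ctx.chi_smooth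
  have := finite_Sha1 w.ctx hρ'
  rw [finrank_H2_eq_HC1 w hρ]
  exact finrank_HC1 w.ne hρ'

end Fermat.Agent.CFT
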