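import Fermat.Agent.CFT.W.Selmer
import Fermat.Agent.CFT.W.Phi2
import Fermat.Agent.CFT.W.Transport2

/-!
# CFT / Part W : the abstract Greenberg-Wiles INEQUALITY, modulo the Euler characteristic bound `hEC`.

`h^1_L(M) + e + ∑_v h^0_v(M) + h^0(M') ≤ ∑_v dim L_v + h^1_{L^⊥}(M') + h^0(M)`
if `h^0(M') + h^2(M') + e ≤ h^1(M')` (Tate's global Euler characteristic, `e = dim M' - h^0(c,M')`).
-/

set_option autoImplicit false

namespace Fermat.Agent.CFT

open Module

variable {D : Datum} {k : Type} [Field k] {χ : D.G →* kˣ}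
  {lam : ∀ v : D.ι, (D.Gv v × D.Gv v → k) →ₗ[k] k} {Φ : D.CC3 k →ₗ[k] k}

theorem gw_le (w : D.WCtx χ lam Φ) {M : Type} [AddCommGroup M] [Module k M]
    [FiniteDimensional k M] {ρ : Representation k D.G M} (hρ : IsSmooth D.lev ρ)
    (L : ∀ v : D.ι, Submodule k (D.Gv v → M))
    (hle : ∀ v, L v ≤ Z1 (D.levv v) (D.loc ρ v)) (hge : ∀ v, B1 (D.loc ρ v) ≤ L v)
    (hfin : ∀ v, Module.Finite k (D.LocQ ρ L v)) (e : ℕ)
    (hEC : finrank k ↥(ρ.dual.twist χ).invariants + finrank k (H2 D.lev (ρ.dual.twist χ)) + e ≤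
      finrank k (H1 D.lev (ρ.dual.twist χ))) :
    finrank k (D.Sel ρ L) + e + (∑ v, finrank k ↥(D.loc ρ v).invariants) +
        finrank k ↥(ρ.dual.twist χ).invariants ≤
      (∑ v, finrank k (D.LocQ ρ L v)) + finrank k (D.Sel (ρ.dual.twist χ) (D.perp ρ χ lam L)) +
        finrank k ↥ρ.invariants := by
  have hρ' : IsSmooth D.lev (ρ.dual.twist χ) := hρ.dualTwist w.ctx.chi_smooth
  have h1 := selmer_le w.ctx hρ L hle hge hfin
  have h2 := finrank_H2 w hρ'
  have iso := isoRep_dualTwist_dualTwist ρ χ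
  obtain ⟨e1⟩ := iso.Sha1 (D := D)
  obtain ⟨e2⟩ := iso.invariants'
  have e3 : ∀ v, finrank k ↥(D.loc ((ρ.dual.twist χ).dual.twist χ) v).invariants =
      finrank k ↥(D.loc ρ v).invariants := fun v => by
    obtain ⟨e⟩ := (iso.comp' (D.r v)).invariants'
    first
      | exact e.finrank_eq
      | exact e.finrank_eq.symm
  rw [Finset.sum_congr rfl (fun v _ => e3 v)] at h2
  have e1' := e1.finrank_eq
  have e2' := e2.finrank_eq
  omega

end Fermat.Agent.CFT
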