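import Fermat.Agent.CFT.W.HC1

/-!
# CFT / Part W, WP W-HC1 : `H^1_c`, finiteness of `H^2`, and the four term sequence of `H^2`.

* `0 → (∏_v N^{G_v}) / N^G → HC1 N → Sha1 N → 0` (`ZC1_quot_equiv`, `Datum.NC1`, F/ConeSeq.lean);
  the diagonal `N^G → ∏_v N^{G_v}` is injective because `ι` is nonempty.
* `H2 N ↪ (HC1 N')^*` by `inj2` (pattern: `sha2_le_aux` / `finrank_quot_le_of_pairing`, F/ShaLe.lean, with
  `ccup21_mem_BC3_of_B2`, `ccup21_mem_BC3_of_BC1`).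
* `0 → Sha2 → H2 → ∏_v H2_v → Coker2 → 0`.
-/

set_option autoImplicit false

namespace Fermat.Agent.CFT

open Module

variable {D : Datum} {k : Type} [Field k] {χ : D.G →* kˣ}
  {lam : ∀ v : D.ι, (D.Gv v × D.Gv v → k) →ₗ[k] k} {Φ : D.CC3 k →ₗ[k] k}

theorem finite_H2 (ctx : D.Ctx χ lam Φ) {N : Type} [AddCommGroup N] [Module k N]
    [FiniteDimensional k N] {ρ : Representation k D.G N} (hρ : IsSmooth D.lev ρ) :
    Module.Finite k (H2 D.lev ρ) ∧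
      finrank k (H2 D.lev ρ) ≤ finrank k (D.HC1 (ρ.dual.twist χ)) := by
  have hρ' : IsSmooth D.lev (ρ.dual.twist χ) := hρ.dualTwist ctx.chi_smooth
  have hfin : Module.Finite k (D.Sha1 (ρ.dual.twist χ)) := finite_Sha1 ctx hρ'
  have hfin' : Module.Finite k (D.HC1 (ρ.dual.twist χ)) := finite_HC1 hρ'
  have hβ := isEquivPairing_evalP ρ χ
  exact finrank_quot_le_of_pairing (Z2 D.lev ρ) (B2 D.lev ρ) (D.ZC1 (ρ.dual.twist χ))
    (D.BC1 (ρ.dual.twist χ)) (D.pair21 (ρ.dual.twist χ) (evalP k N) Φ)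
    (fun a ha _ c hc => ctx.inv.bdry _ (ccup21_mem_BC3_of_B2 hβ hρ' ha hc))
    (fun a ha c hc _ => ctx.inv.bdry _ (ccup21_mem_BC3_of_BC1 hβ hρ' ha hc))
    (fun a ha h => inj2 ctx hρ ha h)

end Fermat.Agent.CFT
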