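import Mathlib

/-!
# CFT / Part W, WP W-LIN : two pure linear algebra lemmas (Mathlib only).
-/

set_option autoImplicit false

namespace Fermat.Agent.CFT.WLin

open Module

variable {k : Type} [Field k]

/-- **row rank = column rank**: for a bilinear form `B : X × Y → k` on finite dimensional spaces,
`dim {x : x ⟂ Y} + dim Y = dim X + dim {y : y ⟂ X}`.
(`LinearMap.finrank_range_dualMap_eq_finrank_range` / `LinearMap.flip`, rank-nullity for `B` and `B.flip`.) -/
theorem finrank_ker_add {X Y : Type} [AddCommGroup X] [Module k X] [AddCommGroup Y] [Module k Y]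
    [FiniteDimensional k X] [FiniteDimensional k Y] (B : X →ₗ[k] Y →ₗ[k] k) :
    finrank k ↥(LinearMap.ker B) + finrank k Y = finrank k X + finrank k ↥(LinearMap.ker B.flip) := by
  have h1 := LinearMap.finrank_range_add_finrank_ker B
  have h2 := LinearMap.finrank_range_add_finrank_ker B.flip
  have h3 : finrank k ↥(LinearMap.range B.flip) = finrank k ↥(LinearMap.range B) := by
    have h4 := LinearMap.finrank_range_dualMap_eq_finrank_range B
    have h5 : B.flip = B.dualMap ∘ₗ (Module.evalEquiv k Y).toLinearMap := by
      ext y x
      simp
    rw [h5, LinearMap.range_comp_of_range_eq_top _ (LinearEquiv.range _), h4]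
  omega

/-- alternating sum of dimensions in a four term exact sequence `0 → A → B → C → E → 0`. -/
theorem finrank_four {A B C E : Type} [AddCommGroup A] [Module k A] [AddCommGroup B] [Module k B]
    [AddCommGroup C] [Module k C] [AddCommGroup E] [Module k E]
    [FiniteDimensional k A] [FiniteDimensional k B] [FiniteDimensional k C] [FiniteDimensional k E]
    (f : A →ₗ[k] B) (g : B →ₗ[k] C) (h : C →ₗ[k] E) (hf : Function.Injective f)
    (hfg : LinearMap.range f = LinearMap.ker g) (hgh : LinearMap.range g = LinearMap.ker h)
    (hh : Function.Surjective h) :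
    finrank k B + finrank k E = finrank k A + finrank k C := by
  have h1 := LinearMap.finrank_range_add_finrank_ker g
  have h2 := LinearMap.finrank_range_add_finrank_ker h
  have h3 := LinearMap.finrank_range_of_inj hf
  have h4 : finrank k ↥(LinearMap.range h) = finrank k E := by
    rw [LinearMap.range_eq_top.2 hh, finrank_top]
  rw [hfg] at h3
  rw [hgh] at h1
  omega

end Fermat.Agent.CFT.WLin
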