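import Fermat.Agent.CFT.W.Defs
import Fermat.Agent.CFT.W.LinAlg

/-!
# CFT / Part W, WP W-HC1 : `H^1_c`, finiteness of `H^2`, and the four term sequence of `H^2`.

* `0 → (∏_v N^{G_v}) / N^G → HC1 N → Sha1 N → 0` (`ZC1_quot_equiv`, `Datum.NC1`, F/ConeSeq.lean);
  the diagonal `N^G → ∏_v N^{G_v}` is injective because `ι` is nonempty.
* `H2 N ↪ (HC1 N')^*` by `inj2` (pattern: `sha2_le_aux` / `finrank_quot_le_of_pairing`, F/ShaLe.lean, with
  `ccup21_mem_BC3_of_B2`, `ccup21_mem_BC3_of_BC1`).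
* `0 → Sha2 → H2 → ∏_v H2_v → Coker2 → 0`.
-/

set_option autoImplicit false
set_option linter.unusedSectionVars false
set_option linter.unusedVariables false

namespace Fermat.Agent.CFT

open Module

namespace WH2

variable {k : Type} [Field k] {ι : Type} [Fintype ι] [DecidableEq ι] {X : Type} [AddCommGroup X]
  [Module k X] {Y : ι → Type} [∀ v, AddCommGroup (Y v)] [∀ v, Module k (Y v)]
  (rr : X →ₗ[k] ∀ v, Y v) (Z B : Submodule k X) (Zl Bl : ∀ v, Submodule k (Y v))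

theorem fMap_aux : B.submoduleOf (Z ⊓ (Submodule.pi Set.univ Bl).comap rr) ≤
    Submodule.comap (Submodule.inclusion inf_le_left :
      ↥(Z ⊓ (Submodule.pi Set.univ Bl).comap rr) →ₗ[k] ↥Z) (B.submoduleOf Z) := by
  intro x hx
  exact hx

/-- `Sha → H` -/
def fMap : (↥(Z ⊓ (Submodule.pi Set.univ Bl).comap rr) ⧸
      B.submoduleOf (Z ⊓ (Submodule.pi Set.univ Bl).comap rr)) →ₗ[k] (↥Z ⧸ B.submoduleOf Z) :=
  Submodule.mapQ _ _ (Submodule.inclusion inf_le_left) (fMap_aux rr Z B Bl)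

variable {rr Z B Zl Bl}

theorem gMap_aux (hZ : ∀ z ∈ Z, ∀ v, rr z v ∈ Zl v) (hB : ∀ b ∈ B, ∀ v, rr b v ∈ Bl v) (v : ι) :
    B.submoduleOf Z ≤ Submodule.comap
      (((LinearMap.proj v).comp rr).restrict (fun z hz => hZ z hz v) : ↥Z →ₗ[k] ↥(Zl v))
      ((Bl v).submoduleOf (Zl v)) := by
  intro b hb
  exact hB b.1 hb v

/-- `H → ∏ H_v` -/
def gMap (hZ : ∀ z ∈ Z, ∀ v, rr z v ∈ Zl v) (hB : ∀ b ∈ B, ∀ v, rr b v ∈ Bl v) :
    (↥Z ⧸ B.submoduleOf Z) →ₗ[k] ∀ v, (↥(Zl v) ⧸ (Bl v).submoduleOf (Zl v)) :=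
  LinearMap.pi fun v => Submodule.mapQ _ _
    (((LinearMap.proj v).comp rr).restrict (fun z hz => hZ z hz v))
    (gMap_aux hZ hB v)

theorem single_mem (v : ι) (P : ∀ v, Submodule k (Y v)) (c : Y v) (hc : c ∈ P v) :
    LinearMap.single k Y v c ∈ Submodule.pi Set.univ P := by
  intro w _
  by_cases h : w = v
  · subst h; simpa using hc
  · simp [h]

theorem hMap_aux (v : ι) : (Bl v).submoduleOf (Zl v) ≤
    Submodule.comap ((LinearMap.single k Y v).restrict (fun c hc => single_mem v Zl c hc))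
      (((Submodule.pi Set.univ Bl) ⊔ Z.map rr).submoduleOf (Submodule.pi Set.univ Zl)) := by
  intro b hb
  exact Submodule.mem_sup_left (single_mem v Bl b.1 hb)

/-- `∏ H_v → Coker` -/
def hMap : (∀ v, (↥(Zl v) ⧸ (Bl v).submoduleOf (Zl v))) →ₗ[k]
    (↥(Submodule.pi Set.univ Zl) ⧸
      ((Submodule.pi Set.univ Bl) ⊔ Z.map rr).submoduleOf (Submodule.pi Set.univ Zl)) :=
  LinearMap.lsum k _ k fun v => Submodule.mapQ _ _
    ((LinearMap.single k Y v).restrict (fun c hc => single_mem v Zl c hc))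
    (hMap_aux v)

theorem hMap_mk (c : ∀ v, ↥(Zl v)) :
    hMap (rr := rr) (Z := Z) (Bl := Bl) (fun v => Submodule.Quotient.mk (c v)) =
      Submodule.Quotient.mk ⟨fun v => (c v : Y v), fun v _ => (c v).2⟩ := by
  unfold hMap
  rw [LinearMap.lsum_apply, LinearMap.sum_apply]
  simp only [LinearMap.comp_apply, LinearMap.proj_apply, Submodule.mapQ_apply]
  simp only [← Submodule.mkQ_apply]
  rw [← map_sum]
  congr 1
  apply Subtype.ext
  rw [Submodule.coe_sum]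
  simp only [LinearMap.coe_restrict_apply, LinearMap.coe_single]
  exact Finset.univ_sum_single _

theorem fMap_injective : Function.Injective (fMap rr Z B Bl) := by
  rw [← LinearMap.ker_eq_bot, LinearMap.ker_eq_bot']
  intro x hx
  obtain ⟨s, rfl⟩ := Submodule.Quotient.mk_surjective _ x
  rw [fMap, Submodule.mapQ_apply, Submodule.Quotient.mk_eq_zero] at hx
  rw [Submodule.Quotient.mk_eq_zero]
  exact hx

theorem gMap_mk (hZ : ∀ z ∈ Z, ∀ v, rr z v ∈ Zl v) (hB : ∀ b ∈ B, ∀ v, rr b v ∈ Bl v) (z : ↥Z) :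
    gMap hZ hB (Submodule.Quotient.mk z) =
      fun v => Submodule.Quotient.mk ⟨rr z.1 v, hZ z.1 z.2 v⟩ := rfl

theorem range_fMap (hZ : ∀ z ∈ Z, ∀ v, rr z v ∈ Zl v) (hB : ∀ b ∈ B, ∀ v, rr b v ∈ Bl v) :
    LinearMap.range (fMap rr Z B Bl) = LinearMap.ker (gMap hZ hB) := by
  apply le_antisymm
  · rintro _ ⟨x, rfl⟩
    obtain ⟨s, rfl⟩ := Submodule.Quotient.mk_surjective _ x
    rw [LinearMap.mem_ker, fMap, Submodule.mapQ_apply, gMap_mk]
    funext v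
    rw [Pi.zero_apply, Submodule.Quotient.mk_eq_zero]
    exact s.2.2 v trivial
  · intro x hx
    obtain ⟨z, rfl⟩ := Submodule.Quotient.mk_surjective _ x
    rw [LinearMap.mem_ker, gMap_mk] at hx
    have h : ∀ v, rr z.1 v ∈ Bl v := fun v => by
      have := congrFun hx v
      rw [Pi.zero_apply, Submodule.Quotient.mk_eq_zero] at this
      exact this
    exact ⟨Submodule.Quotient.mk ⟨z.1, z.2, fun v _ => h v⟩, rfl⟩

theorem range_gMap (hZ : ∀ z ∈ Z, ∀ v, rr z v ∈ Zl v) (hB : ∀ b ∈ B, ∀ v, rr b v ∈ Bl v) :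
    LinearMap.range (gMap hZ hB) = LinearMap.ker (hMap (rr := rr) (Z := Z) (Zl := Zl) (Bl := Bl)) := by
  apply le_antisymm
  · rintro _ ⟨x, rfl⟩
    obtain ⟨z, rfl⟩ := Submodule.Quotient.mk_surjective _ x
    rw [LinearMap.mem_ker, gMap_mk, hMap_mk, Submodule.Quotient.mk_eq_zero]
    exact Submodule.mem_sup_right ⟨z.1, z.2, rfl⟩
  · intro x hx
    choose c hc using fun v => Submodule.Quotient.mk_surjective _ (x v)
    obtain rfl : x = fun v => Submodule.Quotient.mk (c v) := funext fun v => (hc v).symm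
    rw [LinearMap.mem_ker, hMap_mk, Submodule.Quotient.mk_eq_zero] at hx
    obtain ⟨b, hb, _, ⟨z, hz, rfl⟩, hsum⟩ := Submodule.mem_sup.1 hx
    refine ⟨Submodule.Quotient.mk ⟨z, hz⟩, ?_⟩
    rw [gMap_mk]
    funext v
    rw [eq_comm, Submodule.Quotient.eq]
    have h1 : (c v : Y v) - rr z v = b v := by
      have h2 : b v + rr z v = (c v : Y v) := congrFun hsum v
      rw [← h2]; abel
    show (c v : Y v) - rr z v ∈ Bl v
    rw [h1]
    exact hb v trivial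

theorem hMap_surjective :
    Function.Surjective (hMap (rr := rr) (Z := Z) (Zl := Zl) (Bl := Bl)) := by
  intro y
  obtain ⟨c, rfl⟩ := Submodule.Quotient.mk_surjective _ y
  exact ⟨fun v => Submodule.Quotient.mk ⟨c.1 v, c.2 v trivial⟩, hMap_mk _⟩

theorem finrank_abs (hZ : ∀ z ∈ Z, ∀ v, rr z v ∈ Zl v) (hB : ∀ b ∈ B, ∀ v, rr b v ∈ Bl v)
    [Module.Finite k (↥Z ⧸ B.submoduleOf Z)]
    [Module.Finite k (↥(Submodule.pi Set.univ Zl) ⧸
      ((Submodule.pi Set.univ Bl) ⊔ Z.map rr).submoduleOf (Submodule.pi Set.univ Zl))]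
    [Module.Finite k (↥(Z ⊓ (Submodule.pi Set.univ Bl).comap rr) ⧸
      B.submoduleOf (Z ⊓ (Submodule.pi Set.univ Bl).comap rr))]
    [∀ v, Module.Finite k (↥(Zl v) ⧸ (Bl v).submoduleOf (Zl v))] :
    finrank k (↥Z ⧸ B.submoduleOf Z) + finrank k (↥(Submodule.pi Set.univ Zl) ⧸
      ((Submodule.pi Set.univ Bl) ⊔ Z.map rr).submoduleOf (Submodule.pi Set.univ Zl)) =
    finrank k (↥(Z ⊓ (Submodule.pi Set.univ Bl).comap rr) ⧸
      B.submoduleOf (Z ⊓ (Submodule.pi Set.univ Bl).comap rr)) +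
      ∑ v, finrank k (↥(Zl v) ⧸ (Bl v).submoduleOf (Zl v)) := by
  rw [← Module.finrank_pi_fintype k]
  exact WLin.finrank_four (fMap rr Z B Bl) (gMap hZ hB) hMap fMap_injective (range_fMap hZ hB)
    (range_gMap hZ hB) hMap_surjective

theorem finrank_abs' (hZ : ∀ z ∈ Z, ∀ v, rr z v ∈ Zl v) (hB : ∀ b ∈ B, ∀ v, rr b v ∈ Bl v)
    (S : Submodule k X) (ZL RL : Submodule k (∀ v, Y v))
    (hS : S = Z ⊓ (Submodule.pi Set.univ Bl).comap rr) (hZL : ZL = Submodule.pi Set.univ Zl)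
    (hRL : RL = (Submodule.pi Set.univ Bl) ⊔ Z.map rr)
    [Module.Finite k (↥Z ⧸ B.submoduleOf Z)] [Module.Finite k (↥ZL ⧸ RL.submoduleOf ZL)]
    [Module.Finite k (↥S ⧸ B.submoduleOf S)]
    [∀ v, Module.Finite k (↥(Zl v) ⧸ (Bl v).submoduleOf (Zl v))] :
    finrank k (↥Z ⧸ B.submoduleOf Z) + finrank k (↥ZL ⧸ RL.submoduleOf ZL) =
    finrank k (↥S ⧸ B.submoduleOf S) + ∑ v, finrank k (↥(Zl v) ⧸ (Bl v).submoduleOf (Zl v)) := by
  subst hS hZL hRL
  exact finrank_abs hZ hB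

end WH2

variable {D : Datum} {k : Type} [Field k] {χ : D.G →* kˣ}
  {lam : ∀ v : D.ι, (D.Gv v × D.Gv v → k) →ₗ[k] k} {Φ : D.CC3 k →ₗ[k] k}

/-- `h^2 + coker^2 = sha^2 + ∑_v h^2_v` -/
theorem finrank_H2_add_Coker2 {N : Type} [AddCommGroup N] [Module k N]
    {ρ : Representation k D.G N} (hρ : IsSmooth D.lev ρ) [Module.Finite k (H2 D.lev ρ)]
    [Module.Finite k (D.Coker2 ρ)] [Module.Finite k (D.Sha2 ρ)]
    [∀ v, Module.Finite k (H2 (D.levv v) (D.loc ρ v))] :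
    finrank k (H2 D.lev ρ) + finrank k (D.Coker2 ρ) =
      finrank k (D.Sha2 ρ) + ∑ v, finrank k (H2 (D.levv v) (D.loc ρ v)) := by
  have hZ : ∀ z ∈ Z2 D.lev ρ, ∀ v, D.res2 (k := k) z v ∈ Z2 (D.levv v) (D.loc ρ v) :=
    fun _ hz v => comp_hom_mem_Z2 (D.r v) (D.cont v) hz
  have hB : ∀ z ∈ B2 D.lev ρ, ∀ v, D.res2 (k := k) z v ∈ B2 (D.levv v) (D.loc ρ v) :=
    fun _ hb v => comp_hom_mem_B2 (D.r v) (D.cont v) hb
  have h := WH2.finrank_abs' (k := k) (ι := D.ι) (X := D.G × D.G → N)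
    (Y := fun v => D.Gv v × D.Gv v → N) (rr := D.res2) (Z := Z2 D.lev ρ) (B := B2 D.lev ρ)
    (Zl := fun v => Z2 (D.levv v) (D.loc ρ v)) (Bl := fun v => B2 (D.levv v) (D.loc ρ v))
    hZ hB (D.ShaZ2 ρ) (D.ZL2 ρ) (D.RL2 ρ) rfl rfl rfl
  exact h

end Fermat.Agent.CFT
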