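import Fermat.Agent.CFT.W.Defs
import Fermat.Agent.CFT.W.LinAlg

/-!
# CFT / Part W, WP W-HC1 : `H^1_c`, finiteness of `H^2`, and the four term sequence of `H^2`.

* `0 → (∏_v N^{G_v}) / N^G → HC1 N → Sha1 N → 0` (`ZC1_quot_equiv`, `Datum.NC1`, F/ConeSeq.lean);
  the diagonal `N^G → ∏_v N^{G_v}` is injective because `ι` is nonempty.
* `H2 N ↪ (HC1 N')^*` by `inj2` (pattern: `sha2_le_aux` / `finrank_quot_le_of_pairing`, F/ShaLe.lean, with
  `ccup21_mem_BC3_of_B2`, `ccup21_mem_BC3_of_BC1`).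
* `0 → Sha2 → H2 → ∏_v H2_v → Coker2 → 0`.
-/

set_option autoImplicit false

namespace Fermat.Agent.CFT

open Module

variable {D : Datum} {k : Type} [Field k] {χ : D.G →* kˣ}
  {lam : ∀ v : D.ι, (D.Gv v × D.Gv v → k) →ₗ[k] k} {Φ : D.CC3 k →ₗ[k] k}

namespace WHC1

open ConeSeq

variable {N : Type} [AddCommGroup N] [Module k N] (ρ : Representation k D.G N)

/-- `HC1 → Sha1`, `[(a,y)] ↦ [a]` -/
noncomputable def hcToSha1 : D.HC1 ρ →ₗ[k] D.Sha1 ρ :=
  Submodule.liftQ _ (toSha1 ρ) (by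
    intro x hx
    rw [LinearMap.mem_ker, toSha1_eq_zero_iff]
    exact (le_sup_left : D.BC1 ρ ≤ D.NC1 ρ) hx)

lemma hcToSha1_mk (x : ↥(D.ZC1 ρ)) : hcToSha1 ρ (Submodule.Quotient.mk x) = toSha1 ρ x := rfl

lemma hcToSha1_surjective : Function.Surjective (hcToSha1 (D := D) ρ) := by
  intro y
  obtain ⟨x, rfl⟩ := toSha1_surjective y
  exact ⟨Submodule.Quotient.mk x, rfl⟩

/-- the families of local invariants -/
abbrev LocInv : Type := ∀ v : D.ι, ↥(D.loc ρ v).invariants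

/-- `y ↦ (y_v)_v` -/
noncomputable def coeY : LocInv ρ →ₗ[k] (D.ι → N) :=
  LinearMap.pi fun v => ((D.loc ρ v).invariants.subtype).comp (LinearMap.proj v)

lemma coeY_apply (y : LocInv ρ) (v : D.ι) : coeY ρ y v = (y v : N) := rfl

lemma zero_mk_mem_ZC1 (y : LocInv ρ) : ((0, coeY ρ y) : D.CC1 N) ∈ D.ZC1 ρ := by
  refine mem_ZC1.mpr ⟨map_zero _, fun v => ?_, Submodule.zero_mem _⟩
  have h : d01 (D.loc ρ v) (coeY ρ y v) = 0 := d01_eq_zero_iff.mpr (y v).2
  show D.res1 (k := k) 0 v = d01 (D.loc ρ v) (coeY ρ y v)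
  rw [h, map_zero]
  rfl

/-- `y ↦ (0,y)` -/
noncomputable def inclY : LocInv ρ →ₗ[k] ↥(D.ZC1 ρ) :=
  LinearMap.codRestrict _ ((LinearMap.inr k _ _).comp (coeY ρ)) (fun y => zero_mk_mem_ZC1 ρ y)

/-- `y ↦ [(0,y)]` -/
noncomputable def yToHC1 : LocInv ρ →ₗ[k] D.HC1 ρ := (Submodule.mkQ _).comp (inclY ρ)

/-- the diagonal `N^G → ∏ N^{G_v}` -/
noncomputable def diag : ↥ρ.invariants →ₗ[k] LocInv ρ :=
  LinearMap.pi fun v => LinearMap.codRestrict _ ρ.invariants.subtype (fun x => by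
    rw [Representation.mem_invariants]
    intro g
    exact (Representation.mem_invariants ρ _).mp x.2 (D.r v g))

lemma diag_apply (x : ↥ρ.invariants) (v : D.ι) : ((diag ρ x v : ↥(D.loc ρ v).invariants) : N) = x :=
  rfl

lemma diag_injective (ne : Nonempty D.ι) : Function.Injective (diag (D := D) ρ) := by
  intro x x' h
  obtain ⟨v⟩ := ne
  have := congrArg (fun y : LocInv ρ => ((y v : ↥(D.loc ρ v).invariants) : N)) h
  exact Subtype.ext this

lemma range_diag : LinearMap.range (diag (D := D) ρ) = LinearMap.ker (yToHC1 ρ) := by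
  ext y
  rw [LinearMap.mem_ker, yToHC1, LinearMap.comp_apply, Submodule.mkQ_apply,
    Submodule.Quotient.mk_eq_zero, LinearMap.mem_range]
  show _ ↔ ((0, coeY ρ y) : D.CC1 N) ∈ D.BC1 ρ
  constructor
  · rintro ⟨x, rfl⟩
    refine ⟨x.1, ?_⟩
    rw [dc0_apply, d01_eq_zero_iff.mpr x.2]
    rfl
  · rintro ⟨x, hx⟩
    rw [dc0_apply, Prod.mk.injEq] at hx
    refine ⟨⟨x, d01_eq_zero_iff.mp hx.1⟩, ?_⟩
    funext v
    exact Subtype.ext (congrFun hx.2 v)

lemma range_yToHC1 : LinearMap.range (yToHC1 (D := D) ρ) = LinearMap.ker (hcToSha1 ρ) := by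
  ext c
  obtain ⟨x, rfl⟩ := Submodule.Quotient.mk_surjective _ c
  rw [LinearMap.mem_ker, hcToSha1_mk, toSha1_eq_zero_iff, LinearMap.mem_range]
  constructor
  · rintro ⟨y, hy⟩
    have h1 : (Submodule.Quotient.mk (inclY ρ y) : D.HC1 ρ) = Submodule.Quotient.mk x := hy
    rw [Submodule.Quotient.eq] at h1
    have h2 : ((0, coeY ρ y) : D.CC1 N) - x.1 ∈ D.BC1 ρ := h1
    show x.1 ∈ D.NC1 ρ
    have h3 : x.1 = -(((0, coeY ρ y) : D.CC1 N) - x.1) + (0, coeY ρ y) := by abel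
    rw [h3]
    exact Submodule.add_mem_sup (Submodule.neg_mem _ h2) ⟨rfl, fun v _ => (y v).2⟩
  · intro h
    obtain ⟨u, hu, z, hz, huz⟩ := Submodule.mem_sup.mp (show x.1 ∈ D.NC1 ρ from h)
    refine ⟨fun v => ⟨z.2 v, hz.2 v trivial⟩, ?_⟩
    show (Submodule.Quotient.mk (inclY ρ _) : D.HC1 ρ) = Submodule.Quotient.mk x
    rw [Submodule.Quotient.eq]
    show ((0, coeY ρ _) : D.CC1 N) - x.1 ∈ D.BC1 ρ
    have hz1 : z.1 = 0 := hz.1
    have h4 : ((0, coeY ρ fun v => ⟨z.2 v, hz.2 v trivial⟩) : D.CC1 N) = z := by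
      refine Prod.ext hz1.symm ?_
      rfl
    rw [h4, ← huz, sub_add_cancel_right]
    exact Submodule.neg_mem _ hu

end WHC1

theorem finite_HC1 {N : Type} [AddCommGroup N] [Module k N] [FiniteDimensional k N]
    {ρ : Representation k D.G N} (hρ : IsSmooth D.lev ρ) [Module.Finite k (D.Sha1 ρ)] :
    Module.Finite k (D.HC1 ρ) := by
  have h1 : Module.Finite k (LinearMap.ker (WHC1.hcToSha1 (D := D) ρ)) := by
    rw [← WHC1.range_yToHC1]
    infer_instance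
  have h2 : Module.Finite k (D.HC1 ρ ⧸ LinearMap.ker (WHC1.hcToSha1 (D := D) ρ)) :=
    Module.Finite.equiv
      ((WHC1.hcToSha1 (D := D) ρ).quotKerEquivOfSurjective (WHC1.hcToSha1_surjective ρ)).symm
  exact Module.Finite.of_submodule_quotient (LinearMap.ker (WHC1.hcToSha1 (D := D) ρ))

theorem finrank_HC1 (ne : Nonempty D.ι) {N : Type} [AddCommGroup N] [Module k N]
    [FiniteDimensional k N] {ρ : Representation k D.G N} (hρ : IsSmooth D.lev ρ)
    [Module.Finite k (D.Sha1 ρ)] :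
    finrank k (D.HC1 ρ) + finrank k ↥ρ.invariants =
      finrank k (D.Sha1 ρ) + ∑ v, finrank k ↥(D.loc ρ v).invariants := by
  have := finite_HC1 hρ
  have h := WLin.finrank_four (WHC1.diag (D := D) ρ) (WHC1.yToHC1 ρ) (WHC1.hcToSha1 ρ)
    (WHC1.diag_injective ρ ne) (WHC1.range_diag ρ) (WHC1.range_yToHC1 ρ)
    (WHC1.hcToSha1_surjective ρ)
  rw [Module.finrank_pi_fintype] at h
  omega

end Fermat.Agent.CFT
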