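import Fermat.Agent.CFT.W.HC1
import Fermat.Agent.CFT.W.H2Fin
import Fermat.Agent.CFT.W.H2Four
import Fermat.Agent.CFT.W.Transport2

/-!
# CFT / Part W, WP W-IND : `φ^2` is bijective on induced modules `I = mapRep U ρ`, `U` adapted + (LN).

COUNT. `n = dim N`, `P = permRep k U`, `I ≅ P^n` (`isoRep_mapRep`), `I' ≅ P^n` (`isoRep_mapRep_dualTwist`).
* `h^2(I) + coker^2(I) = sha^2(I) + ∑_v h^2_v(I)` (`finrank_H2_add_Coker2`), `coker^2(I) ≤ n`
  (`finrank_Coker2_permRep_le`, `IsoRep.Coker2`, `Coker2_piRep`), `h^2_v(I) = n h^2_v(P) ≥ n h^0_v(P)` (LN);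
* `hc^1(I') + h^0(I') = sha^1(I') + ∑_v h^0_v(I')` (`finrank_HC1`), `sha^1(I') = sha^2(I)` (`abstractPT`:
  use `sha1_le`/`sha2_le` of F/Final.lean), `h^0_v(I') = n h^0_v(P)`, `h^0(I') = n`
  (`finrank_invariants_mapRep` for `P`: `h^0(P) = 1`).
Hence `hc^1(I') ≤ h^2(I)`; with `inj2` and `LinAlg.exists_rep_of_finrank_le` (exactly as in
`deg1_surjective`, F/Chase2.lean) every functional on `HC1 I'` is `Φ (a ∪ ·)`.
-/

set_option autoImplicit false

namespace Fermat.Agent.CFT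

open Module

variable {D : Datum} {k : Type} [Field k] {χ : D.G →* kˣ}
  {lam : ∀ v : D.ι, (D.Gv v × D.Gv v → k) →ₗ[k] k} {Φ : D.CC3 k →ₗ[k] k}

/-- all the finiteness statements and the numerical inequality -/
theorem finrank_HC1_le_H2_mapRep_aux (w : D.WCtx χ lam Φ) {N : Type} [AddCommGroup N] [Module k N]
    [FiniteDimensional k N] {ρ : Representation k D.G N} (hρ : IsSmooth D.lev ρ)
    {U : Subgroup D.G} (hU : D.Adapted2 χ ρ U) :
    Module.Finite k (D.HC1 ((mapRep U ρ).dual.twist χ)) ∧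
    Module.Finite k (H2 D.lev (mapRep U ρ)) ∧
    finrank k (D.HC1 ((mapRep U ρ).dual.twist χ)) ≤ finrank k (H2 D.lev (mapRep U ρ)) := by
  have ctx := w.ctx
  have hA := hU.ad
  have : U.Normal := D.lev.normal U hA.mem
  have : U.FiniteIndex := D.lev.finiteIndex U hA.mem
  set n := finrank k N with hn
  have iso' : IsoRep ((mapRep U ρ).dual.twist χ) (piRep n (permRep k U)) :=
    isoRep_mapRep_dualTwist hA.triv hA.chi
  have iso : IsoRep (mapRep U ρ) (piRep n (permRep k U)) := isoRep_mapRep hA.triv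
  have hsmI : IsSmooth D.lev (mapRep U ρ) := hρ.mapRep hA.mem
  have hsm' : IsSmooth D.lev ((mapRep U ρ).dual.twist χ) := hsmI.dualTwist ctx.chi_smooth
  -- finiteness
  have fH2 : Module.Finite k (H2 D.lev (mapRep U ρ)) := (finite_H2 ctx hsmI).1
  obtain ⟨fCokP, hCokP⟩ := finrank_Coker2_permRep_le (k := k) hA.good
  obtain ⟨eC⟩ := iso.Coker2 (D := D)
  obtain ⟨eC'⟩ := Coker2_piRep (D := D) (ρ := permRep k U) n
  have fCok : Module.Finite k (D.Coker2 (mapRep U ρ)) := Module.Finite.equiv (eC.trans eC').symm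
  have fSha2 : Module.Finite k (D.Sha2 (mapRep U ρ)) := (sha2_le ctx hsmI).1
  have fSha1 : Module.Finite k (D.Sha1 ((mapRep U ρ).dual.twist χ)) := finite_Sha1 ctx hsm'
  have fLocP : ∀ v, Module.Finite k (H2 (D.levv v) (D.loc (permRep k U) v)) := hU.nv.fin
  -- local `H^2`
  have eL : ∀ v, Nonempty (H2 (D.levv v) (D.loc (mapRep U ρ) v) ≃ₗ[k]
      (Fin n → H2 (D.levv v) (D.loc (permRep k U) v))) := by
    intro v
    obtain ⟨e1⟩ := (iso.comp' (D.r v)).H2' (D.levv v)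
    obtain ⟨e2⟩ := H2_piRep' (D.levv v) (D.loc (permRep k U) v) n
    exact ⟨e1.trans e2⟩
  have fLoc : ∀ v, Module.Finite k (H2 (D.levv v) (D.loc (mapRep U ρ) v)) := fun v =>
    Module.Finite.equiv (eL v).some.symm
  have hLoc : ∀ v, finrank k (H2 (D.levv v) (D.loc (mapRep U ρ) v)) =
      n * finrank k (H2 (D.levv v) (D.loc (permRep k U) v)) := fun v => by
    rw [(eL v).some.finrank_eq, LinAlg.finrank_fin_pi]
  -- local invariants
  have eI : ∀ v, Nonempty (↥(D.loc ((mapRep U ρ).dual.twist χ) v).invariants ≃ₗ[k]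
      (Fin n → ↥(D.loc (permRep k U) v).invariants)) := by
    intro v
    obtain ⟨e1⟩ := (iso'.comp' (D.r v)).invariants'
    obtain ⟨e2⟩ := invariants_piRep' (D.loc (permRep k U) v) n
    exact ⟨e1.trans e2⟩
  have hInv : ∀ v, finrank k ↥(D.loc ((mapRep U ρ).dual.twist χ) v).invariants =
      n * finrank k ↥(D.loc (permRep k U) v).invariants := fun v => by
    rw [(eI v).some.finrank_eq, LinAlg.finrank_fin_pi]
  -- global invariants
  have hInvG : finrank k ↥((mapRep U ρ).dual.twist χ).invariants = n := by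
    obtain ⟨e1⟩ := iso'.invariants'
    obtain ⟨e2⟩ := invariants_piRep' (permRep k U) n
    rw [(e1.trans e2).finrank_eq, LinAlg.finrank_fin_pi,
      finrank_invariants_mapRep (ρ := (1 : Representation k D.G k)) (U := U)
        (fun _ _ _ => rfl), finrank_self, mul_one]
  -- `Coker2`
  have hCok : finrank k (D.Coker2 (mapRep U ρ)) ≤ n := by
    rw [(eC.trans eC').finrank_eq, LinAlg.finrank_fin_pi]
    calc n * finrank k (D.Coker2 (permRep k U)) ≤ n * 1 := Nat.mul_le_mul_left _ hCokP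
      _ = n := mul_one n
  -- `Sha`
  have hSha : finrank k (D.Sha1 ((mapRep U ρ).dual.twist χ)) ≤ finrank k (D.Sha2 (mapRep U ρ)) := by
    obtain ⟨e⟩ := (isoRep_dualTwist_dualTwist (mapRep U ρ) χ).Sha2 (D := D)
    exact (sha1_le ctx hsm').trans_eq e.finrank_eq.symm
  have h1 := finrank_H2_add_Coker2 (D := D) hsmI
  have h2 := finrank_HC1 w.ne hsm'
  have h3 : ∑ v, finrank k ↥(D.loc ((mapRep U ρ).dual.twist χ) v).invariants ≤
      ∑ v, finrank k (H2 (D.levv v) (D.loc (mapRep U ρ) v)) := by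
    refine Finset.sum_le_sum fun v _ => ?_
    rw [hInv v, hLoc v]
    exact Nat.mul_le_mul_left _ (hU.nv.le v)
  refine ⟨finite_HC1 hsm', fH2, ?_⟩
  rw [hInvG] at h2
  omega

theorem finrank_HC1_le_H2_mapRep (w : D.WCtx χ lam Φ) {N : Type} [AddCommGroup N] [Module k N]
    [FiniteDimensional k N] {ρ : Representation k D.G N} (hρ : IsSmooth D.lev ρ)
    {U : Subgroup D.G} (hU : D.Adapted2 χ ρ U) :
    finrank k (D.HC1 ((mapRep U ρ).dual.twist χ)) ≤ finrank k (H2 D.lev (mapRep U ρ)) :=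
  (finrank_HC1_le_H2_mapRep_aux w hρ hU).2.2

theorem phi2_surjective_mapRep (w : D.WCtx χ lam Φ) {N : Type} [AddCommGroup N] [Module k N]
    [FiniteDimensional k N] {ρ : Representation k D.G N} (hρ : IsSmooth D.lev ρ)
    {U : Subgroup D.G} (hU : D.Adapted2 χ ρ U)
    (u : D.CC1 (Module.Dual k (D.G ⧸ U → N)) →ₗ[k] k)
    (hu : ∀ c ∈ D.BC1 ((mapRep U ρ).dual.twist χ), u c = 0) :
    ∃ a ∈ Z2 D.lev (mapRep U ρ), ∀ c ∈ D.ZC1 ((mapRep U ρ).dual.twist χ),
      u c = Φ (D.ccup21 ((mapRep U ρ).dual.twist χ) (evalP k (D.G ⧸ U → N)) a c) := by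
  have ctx := w.ctx
  have : U.Normal := D.lev.normal U hU.ad.mem
  have : U.FiniteIndex := D.lev.finiteIndex U hU.ad.mem
  obtain ⟨f1, f2, hle⟩ := finrank_HC1_le_H2_mapRep_aux w hρ hU
  have hsmI : IsSmooth D.lev (mapRep U ρ) := hρ.mapRep hU.ad.mem
  have hsm' : IsSmooth D.lev ((mapRep U ρ).dual.twist χ) := hsmI.dualTwist ctx.chi_smooth
  exact LinAlg.exists_rep_of_finrank_le (Z2 D.lev (mapRep U ρ)) (B2 D.lev (mapRep U ρ))
    (D.ZC1 ((mapRep U ρ).dual.twist χ)) (D.BC1 ((mapRep U ρ).dual.twist χ))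
    (D.pair21 ((mapRep U ρ).dual.twist χ) (evalP k (D.G ⧸ U → N)) Φ)
    (fun a ha c hc => ctx.inv.bdry _
      (ccup21_mem_BC3_of_BC1 (isEquivPairing_evalP _ χ) hsm' ha hc))
    (fun a ha h => inj2 ctx hsmI ha h) hle u hu

end Fermat.Agent.CFT
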