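import Fermat.Agent.CFT.W.LESDefs

/-! # CFT / Part W : auxiliary lemmas shared by W-LES1 and W-LES2. -/

set_option autoImplicit false

namespace Fermat.Agent.CFT

open Module

namespace LES

section one
variable {k : Type} [Field k] {G : Type} [Group G] (𝒰 : Levels G)
  {V : Type} [AddCommGroup V] [Module k V] (ρ : Representation k G V)

theorem ker_d01 : LinearMap.ker (d01 ρ) = ρ.invariants := by
  ext v
  simp only [LinearMap.mem_ker, Representation.mem_invariants, funext_iff, d01_apply,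
    Pi.zero_apply, sub_eq_zero]

theorem finrank_B1 [FiniteDimensional k V] :
    finrank k ↥(B1 ρ) + finrank k ↥ρ.invariants = finrank k V := by
  have := LinearMap.finrank_range_add_finrank_ker (d01 ρ)
  rwa [ker_d01] at this

instance finite_B1 [FiniteDimensional k V] : Module.Finite k ↥(B1 ρ) :=
  Module.Finite.range (d01 ρ)

/-- `dim Q/P + dim P = dim Q` -/
theorem finrank_quot {M : Type} [AddCommGroup M] [Module k M] {P Q : Submodule k M} (h : P ≤ Q)
    [Module.Finite k ↥Q] :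
    finrank k (↥Q ⧸ P.submoduleOf Q) + finrank k ↥P = finrank k ↥Q := by
  have := Submodule.finrank_quotient_add_finrank (P.submoduleOf Q)
  rwa [(Submodule.submoduleOfEquivOfLe h).finrank_eq] at this

theorem finite_of_quot {M : Type} [AddCommGroup M] [Module k M] {P Q : Submodule k M} (h : P ≤ Q)
    [Module.Finite k ↥P] [Module.Finite k (↥Q ⧸ P.submoduleOf Q)] : Module.Finite k ↥Q := by
  have : Module.Finite k ↥(P.submoduleOf Q) :=
    Module.Finite.equiv (Submodule.submoduleOfEquivOfLe h).symm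
  exact Module.Finite.of_submodule_quotient (P.submoduleOf Q)

variable {ρ} in
theorem finite_Z1 [FiniteDimensional k V] (hρ : IsSmooth 𝒰 ρ) [Module.Finite k (H1 𝒰 ρ)] :
    Module.Finite k ↥(Z1 𝒰 ρ) :=
  finite_of_quot (B1_le_Z1 hρ)

variable {ρ} in
/-- `h^1 + dim V = z^1 + dim V^G` -/
theorem finrank_H1_add [FiniteDimensional k V] (hρ : IsSmooth 𝒰 ρ) [Module.Finite k (H1 𝒰 ρ)] :
    finrank k (H1 𝒰 ρ) + finrank k V = finrank k ↥(Z1 𝒰 ρ) + finrank k ↥ρ.invariants := by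
  have := finite_Z1 𝒰 hρ
  have h1 : finrank k (H1 𝒰 ρ) + finrank k ↥(B1 ρ) = finrank k ↥(Z1 𝒰 ρ) :=
    finrank_quot (B1_le_Z1 hρ)
  have h2 := finrank_B1 ρ
  omega

end one

variable {k : Type} [Field k] {G : Type} [Group G] (𝒰 : Levels G)
  {A B C : Type} [AddCommGroup A] [Module k A] [AddCommGroup B] [Module k B]
  [AddCommGroup C] [Module k C]
  {ρA : Representation k G A} {ρB : Representation k G B} {ρC : Representation k G C}
  {i : A →ₗ[k] B} {π : B →ₗ[k] C}

theorem exists_splitting (ses : IsSES ρA ρB ρC i π) :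
    ∃ (s : C →ₗ[k] B) (r : B →ₗ[k] A), (∀ c, π (s c) = c) ∧ (∀ a, r (i a) = a) ∧
      ∀ b, i (r b) = b - s (π b) := by
  obtain ⟨s, hs⟩ := LinearMap.exists_rightInverse_of_surjective π (LinearMap.range_eq_top.2 ses.surj)
  obtain ⟨r₀, hr₀⟩ := LinearMap.exists_leftInverse_of_injective i (LinearMap.ker_eq_bot.2 ses.inj)
  have hs' : ∀ c, π (s c) = c := fun c => LinearMap.congr_fun hs c
  have hr' : ∀ a, r₀ (i a) = a := fun a => LinearMap.congr_fun hr₀ a
  have hπi : ∀ a, π (i a) = 0 := fun a => (ses.exact _).2 ⟨a, rfl⟩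
  refine ⟨s, r₀ ∘ₗ (LinearMap.id - s ∘ₗ π), hs', fun a => ?_, fun b => ?_⟩
  · simp [hπi, hr']
  · obtain ⟨n, hn⟩ := (ses.exact (b - s (π b))).1 (by simp [hs'])
    simp only [LinearMap.comp_apply, LinearMap.sub_apply, LinearMap.id_apply]
    rw [← hn, hr']

theorem pi_i (ses : IsSES ρA ρB ρC i π) (a : A) : π (i a) = 0 := (ses.exact _).2 ⟨a, rfl⟩

theorem finrank_ses (ses : IsSES ρA ρB ρC i π) [FiniteDimensional k A] [FiniteDimensional k B]
    [FiniteDimensional k C] : finrank k B = finrank k A + finrank k C := by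
  have h1 := LinearMap.finrank_range_add_finrank_ker π
  have h2 : finrank k ↥(LinearMap.range π) = finrank k C := by
    rw [LinearMap.range_eq_top.2 ses.surj, finrank_top]
  have h3 := LinearMap.finrank_range_of_inj ses.inj
  have h4 : LinearMap.range i = LinearMap.ker π := by
    ext x
    rw [LinearMap.mem_ker, ses.exact]
    rfl
  rw [h4] at h3
  omega

theorem B1_le_map (ses : IsSES ρA ρB ρC i π) (hB : IsSmooth 𝒰 ρB) :
    B1 ρC ≤ (Z1 𝒰 ρB).map (π.compLeft G) := by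
  rintro _ ⟨x, rfl⟩
  obtain ⟨y, rfl⟩ := ses.surj x
  exact ⟨d01 ρB y, B1_le_Z1 hB ⟨y, rfl⟩, (d01_comp π ses.π_equiv y).symm⟩

theorem imZ1_eq (ses : IsSES ρA ρB ρC i π) (hB : IsSmooth 𝒰 ρB) :
    imZ1 𝒰 ρB ρC π = (Z1 𝒰 ρB).map (π.compLeft G) :=
  sup_eq_left.2 (B1_le_map 𝒰 ses hB)

theorem B1_le_imZ1 : B1 ρC ≤ imZ1 𝒰 ρB ρC π := le_sup_right

theorem imZ1_le_Z1 (ses : IsSES ρA ρB ρC i π) (hC : IsSmooth 𝒰 ρC) :
    imZ1 𝒰 ρB ρC π ≤ Z1 𝒰 ρC := by
  refine sup_le ?_ (B1_le_Z1 hC)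
  rintro _ ⟨b, hb, rfl⟩
  exact comp_mem_Z1 π ses.π_equiv hb

end LES

end Fermat.Agent.CFT
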