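import Fermat.Agent.CFT.F.Ctx
import Fermat.Agent.CFT.F.Basic
import Fermat.Agent.CFT.W.LinAlg

/-!
# CFT / Part W, WPs W-LES1, W-LES2 : the long exact cohomology sequence in degrees 0,1,2 for level groups,
in the form of two dimension formulas.  (No `Datum`: `G` a group with levels `𝒰`.)

`0 → A → B → C → 0` (`IsSES`), all smooth and finite dimensional.  Choose `k`-linear maps `s : C → B`, `r : B → A` with
`π ∘ s = id`, `r ∘ i = id`, `i ∘ r = id - s ∘ π`.  All connecting maps are then explicit LINEAR maps on cochains: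
`δ^0 c = r ∘ d01 ρB (s c)`, `δ^1 c = r ∘ d12 ρB (s ∘ c)` (`s ∘ c` is locally constant: `comp_mem_C1`).
`imZ1 := π_*(Z^1 B) + B^1 C` represents the image of `H^1(B) → H^1(C)`.
-/

set_option autoImplicit false

namespace Fermat.Agent.CFT

open Module

variable {k : Type} [Field k] {G : Type} [Group G] (𝒰 : Levels G)
  {A B C : Type} [AddCommGroup A] [Module k A] [AddCommGroup B] [Module k B]
  [AddCommGroup C] [Module k C]
  {ρA : Representation k G A} {ρB : Representation k G B} {ρC : Representation k G C}
  {i : A →ₗ[k] B} {π : B →ₗ[k] C}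

/-- cocycles of `C` representing the image of `H^1(B) → H^1(C)` -/
def imZ1 (ρB : Representation k G B) (ρC : Representation k G C) (π : B →ₗ[k] C) :
    Submodule k (G → C) :=
  (Z1 𝒰 ρB).map (π.compLeft G) ⊔ B1 ρC

end Fermat.Agent.CFT
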