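import Fermat.Agent.CFT.W.LESAux

/-! # CFT / Part W, WP W-LES1 (see LESDefs.lean for the recipe).

The proof avoids the connecting map: with `z^1 = dim Z^1`, one has `h^1(X) + dim X = z^1(X) + dim X^G`, and
`0 → Z^1(A) → Z^1(B) → imZ1 → 0` is exact (`B^1(C) ⊆ π_* Z^1(B)` because `π` is surjective). -/

set_option autoImplicit false

namespace Fermat.Agent.CFT

open Module

variable {k : Type} [Field k] {G : Type} [Group G] (𝒰 : Levels G)
  {A B C : Type} [AddCommGroup A] [Module k A] [AddCommGroup B] [Module k B]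
  [AddCommGroup C] [Module k C]
  {ρA : Representation k G A} {ρB : Representation k G B} {ρC : Representation k G C}
  {i : A →ₗ[k] B} {π : B →ₗ[k] C}

/-- `0 → Z^1(A) → Z^1(B) → π_* Z^1(B) → 0` -/
theorem LES.finrank_Z1 (ses : IsSES ρA ρB ρC i π) [Module.Finite k ↥(Z1 𝒰 ρB)] :
    finrank k ↥(Z1 𝒰 ρB) =
      finrank k ↥(Z1 𝒰 ρA) + finrank k ↥((Z1 𝒰 ρB).map (π.compLeft G)) := by
  obtain ⟨s, r, hs, hr, hir⟩ := LES.exists_splitting ses
  let φ : ↥(Z1 𝒰 ρB) →ₗ[k] (G → C) := (π.compLeft G).domRestrict (Z1 𝒰 ρB)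
  let ψ : ↥(Z1 𝒰 ρA) →ₗ[k] ↥(Z1 𝒰 ρB) :=
    LinearMap.codRestrict (Z1 𝒰 ρB) ((i.compLeft G).domRestrict (Z1 𝒰 ρA))
      (fun a => comp_mem_Z1 i ses.i_equiv a.2)
  have hψ : Function.Injective ψ := by
    intro a a' h
    apply Subtype.ext
    funext g
    have := congrFun (congrArg Subtype.val h) g
    exact ses.inj this
  have hker : LinearMap.range ψ = LinearMap.ker φ := by
    ext b
    constructor
    · rintro ⟨a, rfl⟩
      rw [LinearMap.mem_ker]
      funext g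
      exact LES.pi_i ses _
    · intro hb
      rw [LinearMap.mem_ker] at hb
      have hb' : ∀ g, π (b.1 g) = 0 := fun g => congrFun hb g
      have hib : i ∘ (r ∘ b.1) = b.1 := by
        funext g
        simp only [Function.comp_apply, hir, hb', map_zero, sub_zero]
      have hmem : r ∘ b.1 ∈ Z1 𝒰 ρA := by
        refine ⟨LinearMap.mem_ker.2 ?_, comp_mem_C1 r b.2.2⟩
        funext g
        apply ses.inj
        have h1 := congrFun (d12_comp i ses.i_equiv (r ∘ b.1)) g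
        rw [hib, LinearMap.mem_ker.1 b.2.1] at h1
        simpa using h1.symm
      exact ⟨⟨r ∘ b.1, hmem⟩, Subtype.ext hib⟩
  have h1 := LinearMap.finrank_range_add_finrank_ker φ
  have h2 := LinearMap.finrank_range_of_inj hψ
  have h3 : LinearMap.range φ = (Z1 𝒰 ρB).map (π.compLeft G) := LinearMap.range_domRestrict _ _
  rw [hker] at h2
  rw [h3] at h1
  omega

/-- `0 → A^G → B^G → C^G → H^1(A) → H^1(B) → im → 0` -/
theorem LES.low (ses : IsSES ρA ρB ρC i π) [FiniteDimensional k A] [FiniteDimensional k B]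
    [FiniteDimensional k C] (hA : IsSmooth 𝒰 ρA) (hB : IsSmooth 𝒰 ρB) (hC : IsSmooth 𝒰 ρC)
    [Module.Finite k (H1 𝒰 ρA)] [Module.Finite k (H1 𝒰 ρB)] [Module.Finite k (H1 𝒰 ρC)] :
    finrank k ↥ρA.invariants + finrank k ↥ρC.invariants + finrank k (H1 𝒰 ρB) =
      finrank k ↥ρB.invariants + finrank k (H1 𝒰 ρA) +
        finrank k (↥(imZ1 𝒰 ρB ρC π) ⧸ (B1 ρC).submoduleOf (imZ1 𝒰 ρB ρC π)) := by
  have fB := LES.finite_Z1 𝒰 hB
  have fC := LES.finite_Z1 𝒰 hC
  have fim : Module.Finite k ↥(imZ1 𝒰 ρB ρC π) :=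
    Submodule.finiteDimensional_of_le (LES.imZ1_le_Z1 𝒰 ses hC)
  have h1 := LES.finrank_H1_add 𝒰 hA
  have h2 := LES.finrank_H1_add 𝒰 hB
  have h3 := LES.finrank_quot (LES.B1_le_imZ1 𝒰 (ρB := ρB) (ρC := ρC) (π := π))
  have h4 := LES.finrank_B1 ρC
  have h5 := LES.finrank_Z1 𝒰 ses
  have h6 := LES.finrank_ses ses
  rw [← LES.imZ1_eq 𝒰 ses hB] at h5
  omega

end Fermat.Agent.CFT
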