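import Fermat.Agent.CFT.W.Phi2
import Fermat.Agent.CFT.F.Shapiro.Comp

/-!
# CFT / Part W, WP W-LAM : every vector of the hyperplane `∑ t_v = 0` is `(lam_v (res_v a))_v` for a global class
`a ∈ H^2(G, μ)`.  In particular `lam_v ≠ 0` for EVERY `v` as soon as `ι` has two elements.

PROOF. `phi2_surjective` for `ρ = chiRep χ` on `N = k`. `u : CC1 (Dual k k) →ₗ k`, `u (f,(y_v)) = ∑_v t_v * y_v 1`.
It kills `BC1 = range dc0`, `dc0 x = (d01 x, fun _ => x)`.  So `u c = Φ (ccup21 ρ' (evalP k k) a c)` on `ZC1 ρ'`.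
For `v₀` take `c = (0, Pi.single v₀ y)`, `y = LinearMap.id` (`y 1 = 1`); `c ∈ ZC1 ρ'` because `ρ' = (chiRep χ).dual.twist χ`
is the trivial representation (`(ρ' g y) x = χ g * y (χ g⁻¹ * x) = y x`).  `ccup21 a c = (0, fun v => cup20 .. (res_v a) (c.2 v))`,
`cup20 (res_{v₀} a) y = res_{v₀} a` pointwise, and `ctx.inv.loc` gives `Φ (0,b) = ∑_v lam v (b v) = lam v₀ (res2 a v₀)`.
-/

set_option autoImplicit false

namespace Fermat.Agent.CFT

open Module

variable {D : Datum} {k : Type} [Field k] {χ : D.G →* kˣ}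
  {lam : ∀ v : D.ι, (D.Gv v × D.Gv v → k) →ₗ[k] k} {Φ : D.CC3 k →ₗ[k] k}

/-- `μ^*(1)` is the trivial representation. -/
theorem dualTwist_chiRep_apply {G : Type} [Group G] (χ : G →* kˣ) (g : G) (y : Module.Dual k k) :
    ((chiRep χ).dual.twist χ) g y = y := by
  ext
  simp only [Representation.twist_apply_apply, Representation.dual_apply, LinearMap.smul_apply,
    Module.Dual.transpose_apply, LinearMap.comp_apply, smul_eq_mul, chiRep_apply, mul_one]
  have : y ((χ g⁻¹ : kˣ) : k) = ((χ g⁻¹ : kˣ) : k) * y 1 := by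
    conv_lhs => rw [← mul_one ((χ g⁻¹ : kˣ) : k), ← smul_eq_mul, map_smul, smul_eq_mul]
  rw [this, map_inv, Units.mul_inv_cancel_left]

theorem exists_global_of_sum_eq_zero (w : D.WCtx χ lam Φ) (t : D.ι → k) (ht : ∑ v, t v = 0) :
    ∃ a ∈ Z2 D.lev (chiRep χ), ∀ v, lam v (D.res2 (k := k) a v) = t v := by
  classical
  have hρ : IsSmooth D.lev (chiRep χ) := isSmooth_chiRep w.ctx.chi_smooth
  have htriv := dualTwist_chiRep_apply χ
  let u : D.CC1 (Module.Dual k k) →ₗ[k] k :=
    { toFun := fun c => ∑ v, t v * (c.2 v) 1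
      map_add' := fun c c' => by
        rw [← Finset.sum_add_distrib]
        exact Finset.sum_congr rfl fun v _ => by
          simp [mul_add]
      map_smul' := fun r c => by
        rw [RingHom.id_apply, Finset.smul_sum]
        exact Finset.sum_congr rfl fun v _ => by
          simp only [Prod.smul_snd, Pi.smul_apply, LinearMap.smul_apply, smul_eq_mul]
          ring }
  have hu' : ∀ c : D.CC1 (Module.Dual k k), u c = ∑ v, t v * (c.2 v) 1 := fun _ => rfl
  obtain ⟨a, ha, hau⟩ := phi2_surjective w hρ u (by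
    rintro _ ⟨x, rfl⟩
    rw [hu', Datum.dc0_apply]
    change ∑ v, t v * x 1 = 0
    rw [← Finset.sum_mul, ht, zero_mul])
  refine ⟨a, ha, fun v₀ => ?_⟩
  let c : D.CC1 (Module.Dual k k) := (0, Pi.single v₀ LinearMap.id)
  have hc : c ∈ D.ZC1 ((chiRep χ).dual.twist χ) := by
    refine ⟨LinearMap.mem_ker.2 ?_, Submodule.mem_prod.2 ⟨Submodule.zero_mem _, trivial⟩⟩
    rw [Datum.dc1_apply]
    refine Prod.ext ?_ ?_
    · exact map_zero _
    · funext v g
      simp only [Pi.sub_apply, d01_apply]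
      change (0 : Module.Dual k k) - (((chiRep χ).dual.twist χ) (D.r v g) (c.2 v) - c.2 v) = 0
      rw [htriv, sub_self, sub_zero]
  have h1 := hau c hc
  have h2 : u c = t v₀ := by
    rw [hu', Finset.sum_eq_single v₀]
    · simp [c]
    · intro v _ hv
      simp [c, Pi.single_eq_of_ne hv]
    · intro h
      exact absurd (Finset.mem_univ v₀) h
  let b : ∀ v : D.ι, D.Gv v × D.Gv v → k := Pi.single v₀ (D.res2 (k := k) a v₀)
  have h3 : D.ccup21 ((chiRep χ).dual.twist χ) (evalP k k) a c = (0, b) := by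
    refine Prod.ext ?_ ?_
    · funext g
      simp [Datum.ccup21, cup21, c]
    · funext v g
      by_cases hv : v = v₀
      · subst hv
        simp only [Datum.ccup21, cup20, c, b, Pi.single_eq_same]
        change evalP k k _ (((chiRep χ).dual.twist χ) _ _) = _
        rw [htriv]
        rfl
      · simp only [Datum.ccup21, cup20, c, b, Pi.single_eq_of_ne hv]
        simp
  have hb : b ∈ D.ZL2 (chiRep χ) := by
    intro v _
    by_cases hv : v = v₀
    · subst hv
      simp only [b, Pi.single_eq_same]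
      exact D.res2_mem_Z2 ha v
    · simp only [b, Pi.single_eq_of_ne hv]
      exact Submodule.zero_mem _
  rw [h2, h3, w.ctx.inv.loc b hb, Finset.sum_eq_single v₀] at h1
  · simp only [b, Pi.single_eq_same] at h1
    exact h1.symm
  · intro v _ hv
    simp only [b, Pi.single_eq_of_ne hv, map_zero]
  · intro h
    exact absurd (Finset.mem_univ v₀) h

/-- `lam v` does not vanish on `Z^2(G_v, μ)` if there is a second place. -/
theorem exists_lam_ne_zero (w : D.WCtx χ lam Φ) {v v' : D.ι} (hne : v ≠ v') :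
    ∃ c ∈ Z2 (D.levv v) (D.loc (chiRep χ) v), lam v c ≠ 0 := by
  classical
  obtain ⟨a, ha, h⟩ := exists_global_of_sum_eq_zero w
    (fun x => (if x = v then 1 else 0) - (if x = v' then 1 else 0)) (by simp)
  refine ⟨D.res2 (k := k) a v, D.res2_mem_Z2 ha v, ?_⟩
  rw [h v]
  simp [hne]

end Fermat.Agent.CFT
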