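import Fermat.Agent.CFT.W.Inst
import Fermat.Agent.CFT.W.Lam

/-! # CFT / Part W, WP W-LAMNE. -/

set_option autoImplicit false

open ExtCitation Module

namespace Fermat.Agent.CFT

variable {p : ℕ} [Fact p.Prime]

/-- some local class at `v` is not killed by `lam v` -/
theorem exists_lam_ne_zero_DS (hp2 : p ≠ 2) (S : Finset Nat.Primes) (hpS : pPrime p ∈ S)
    {lam : ∀ v : (DS S).ι, ((DS S).Gv v × (DS S).Gv v → ZMod p) →ₗ[ZMod p] ZMod p}
    {Φ : (DS S).CC3 (ZMod p) →ₗ[ZMod p] ZMod p} (ctx : (DS S).Ctx (cycloChar p) lam Φ)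
    (v : (DS S).ι) :
    ∃ c ∈ Z2 ((DS S).levv v) ((DS S).loc (chiRep (cycloChar p)) v), lam v c ≠ 0 := by
  classical
  by_cases h : ∃ v' : (DS S).ι, v ≠ v'
  · obtain ⟨v', hne⟩ := h
    exact exists_lam_ne_zero (wctx_of_ctx hp2 S hpS ctx) hne
  · push Not at h
    obtain ⟨v₀, h₀⟩ := ctx.nonvan
    obtain rfl : v = v₀ := h v₀
    obtain ⟨W, hW⟩ := ((DS S).levv v).nonempty
    have hfin : W.FiniteIndex := ((DS S).levv v).finiteIndex W hW
    let _ : Fintype ((DS S).Gv v ⧸ W) := Fintype.ofFinite _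
    obtain ⟨c, hc, hne⟩ := h₀ W hW inferInstance
    exact ⟨_, LS.mapRepSum_comp_mem_Z2 W hc, hne⟩

/-- `lam v` is injective on `H^2(D_v, μ_p)` for EVERY `v ∈ S`.
(`exists_lam_ne_zero` if `S` has a second element, `ctx.nonvan` otherwise; `dim H^2(D_v,μ_p) ≤ 1`: as `h2_le_one` in
T/LocalP.lean with `LS.isLocSys_decomp v`.) -/
theorem lam_ne_zero (hp2 : p ≠ 2) (S : Finset Nat.Primes) (hpS : pPrime p ∈ S)
    {lam : ∀ v : (DS S).ι, ((DS S).Gv v × (DS S).Gv v → ZMod p) →ₗ[ZMod p] ZMod p}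
    {Φ : (DS S).CC3 (ZMod p) →ₗ[ZMod p] ZMod p} (ctx : (DS S).Ctx (cycloChar p) lam Φ)
    (v : (DS S).ι) {c : (DS S).Gv v × (DS S).Gv v → ZMod p}
    (hc : c ∈ Z2 ((DS S).levv v) ((DS S).loc (chiRep (cycloChar p)) v))
    (hcB : c ∉ B2 ((DS S).levv v) ((DS S).loc (chiRep (cycloChar p)) v)) : lam v c ≠ 0 := by
  obtain ⟨c₁, hc₁, hne⟩ := exists_lam_ne_zero_DS hp2 S hpS ctx v
  obtain ⟨ζ, hζ, hact⟩ := exists_zeta_sub p (decomp v.1)
  obtain ⟨t, ht⟩ := (LS.isLocSys_decomp v.1).exists_smul_sub_mem_B2 hζ hact hc hcB hc₁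
  intro h0
  apply hne
  have h1 := ctx.lamB v _ ht
  rw [map_sub, map_smul, h0, smul_zero, sub_zero] at h1
  exact h1

end Fermat.Agent.CFT
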