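import Fermat.Agent.CFT.W.Phi2

/-!
# CFT / Part W, WP W-REX : `H^2(G,-)` is right exact on finite smooth modules (`cd_p ≤ 2` in effect).

`π : B ->> C` equivariant. Take `U` adapted + (LN) for `ρB` and acting trivially on `C` as well (apply
`exists_adapted2` to `ρB` below a level acting trivially on `C`: `hC.exists_trivial`; `Adapted2 χ ρC U` follows).
`π_* : mapRep U ρB → mapRep U ρC` has an EQUIVARIANT linear section: choose a `k`-linear section `s` of `π` and put
`(σ F)(x) = ρB x̃ (s (ρC x̃⁻¹ (F x)))`, `x̃ = Quotient.out x` (independent of the representative since `U` acts trivially: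
`rho_eq_of_mk_eq`, `rho_inv_eq_of_mk_eq`, F/MapRep.lean).  Given `c ∈ Z2 ρC`: `c ~ mapRepSum ∘ a`, `a ∈ Z2 (mapRep U ρC)`
(`H2_mapRepSum_surjective`); `b := mapRepSum ∘ σ ∘ a ∈ Z2 ρB` and `π ∘ b = mapRepSum ∘ π_* ∘ σ ∘ a = mapRepSum ∘ a`.
-/

set_option autoImplicit false

namespace Fermat.Agent.CFT

open Module

section Section

variable {k : Type} [Field k] {G : Type} [Group G] {B C : Type} [AddCommGroup B] [Module k B]
  [AddCommGroup C] [Module k C]

/-- the twisted section `(σ F)(x) = ρB x̃ (s (ρC x̃⁻¹ (F x)))` -/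
noncomputable def mapRepSection (U : Subgroup G) (ρB : Representation k G B)
    (ρC : Representation k G C) (s : C →ₗ[k] B) : (G ⧸ U → C) →ₗ[k] (G ⧸ U → B) where
  toFun F x := ρB x.out (s (ρC (x.out)⁻¹ (F x)))
  map_add' F F' := by funext x; simp
  map_smul' c F := by funext x; simp

theorem mapRepSection_apply (U : Subgroup G) (ρB : Representation k G B)
    (ρC : Representation k G C) (s : C →ₗ[k] B) (F : G ⧸ U → C) (x : G ⧸ U) :
    mapRepSection U ρB ρC s F x = ρB x.out (s (ρC (x.out)⁻¹ (F x))) := rfl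

theorem mapRepSection_equiv {U : Subgroup G} {ρB : Representation k G B}
    {ρC : Representation k G C} (hB : ∀ s ∈ U, ∀ v, ρB s v = v) (hC : ∀ s ∈ U, ∀ v, ρC s v = v)
    (s : C →ₗ[k] B) (g : G) (F : G ⧸ U → C) :
    mapRepSection U ρB ρC s (mapRep U ρC g F) = mapRep U ρB g (mapRepSection U ρB ρC s F) := by
  funext x
  rw [mapRepSection_apply, mapRep_apply, mapRep_apply, mapRepSection_apply,
    ← rho_eq_of_mk_eq hB (mk_smul_out U g⁻¹ x), ← rho_inv_eq_of_mk_eq hC (mk_smul_out U g⁻¹ x),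
    mul_inv_rev, inv_inv, map_mul, map_mul, Module.End.mul_apply, Module.End.mul_apply,
    rho_apply_inv_apply]

theorem mapRepSum_mapRepSection (U : Subgroup G) [Fintype (G ⧸ U)] {ρB : Representation k G B}
    {ρC : Representation k G C} (π : B →ₗ[k] C) (hπ : ∀ g x, π (ρB g x) = ρC g (π x))
    (s : C →ₗ[k] B) (hs : ∀ c, π (s c) = c) (F : G ⧸ U → C) :
    π (mapRepSum (k := k) U (mapRepSection U ρB ρC s F)) = mapRepSum (k := k) U F := by
  simp only [mapRepSum, LinearMap.coe_mk, AddHom.coe_mk, map_sum]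
  refine Finset.sum_congr rfl fun x _ => ?_
  rw [mapRepSection_apply, hπ, hs, rho_apply_inv_apply]

end Section

variable {D : Datum} {k : Type} [Field k] {χ : D.G →* kˣ}
  {lam : ∀ v : D.ι, (D.Gv v × D.Gv v → k) →ₗ[k] k} {Φ : D.CC3 k →ₗ[k] k}

theorem H2_surjective_of_surjective (w : D.WCtx χ lam Φ) {B C : Type} [AddCommGroup B]
    [Module k B] [FiniteDimensional k B] [AddCommGroup C] [Module k C] [FiniteDimensional k C]
    {ρB : Representation k D.G B} {ρC : Representation k D.G C} (hB : IsSmooth D.lev ρB)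
    (hC : IsSmooth D.lev ρC) (π : B →ₗ[k] C) (hπ : ∀ g x, π (ρB g x) = ρC g (π x))
    (hs : Function.Surjective π) {c : D.G × D.G → C} (hc : c ∈ Z2 D.lev ρC) :
    ∃ b ∈ Z2 D.lev ρB, π ∘ b - c ∈ B2 D.lev ρC := by
  obtain ⟨U₀, hU₀, hC0⟩ := hC.exists_trivial
  obtain ⟨U, hUU₀, hU⟩ := exists_adapted2 w hB hU₀
  have hCU : ∀ s ∈ U, ∀ v, ρC s v = v := fun s hs v => hC0 s (hUU₀ hs) v
  have hUC : D.Adapted2 χ ρC U := ⟨⟨hU.ad.mem, hU.ad.good, hCU, hU.ad.chi⟩, hU.nv⟩
  have : U.FiniteIndex := D.lev.finiteIndex U hU.ad.mem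
  let _ : Fintype (D.G ⧸ U) := Fintype.ofFinite _
  obtain ⟨a, ha, hac⟩ := H2_mapRepSum_surjective w hC hUC hc
  obtain ⟨s, hs'⟩ := π.exists_rightInverse_of_surjective (LinearMap.range_eq_top.2 hs)
  have hs'' : ∀ c, π (s c) = c := fun c => LinearMap.congr_fun hs' c
  refine ⟨(mapRepSum (k := k) U ∘ₗ mapRepSection U ρB ρC s) ∘ a, ?_, ?_⟩
  · refine comp_mem_Z2 (mapRepSum (k := k) U ∘ₗ mapRepSection U ρB ρC s) (fun g F => ?_) ha
    rw [LinearMap.comp_apply, LinearMap.comp_apply, mapRepSection_equiv hU.ad.triv hCU,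
      mapRepSum_equiv_w]
  · have e : π ∘ (mapRepSum (k := k) U ∘ₗ mapRepSection U ρB ρC s) ∘ a =
        fun g => mapRepSum (k := k) U (a g) := by
      funext g
      exact mapRepSum_mapRepSection U π hπ s hs'' (a g)
    rw [e]
    exact hac

end Fermat.Agent.CFT
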