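import Fermat.Agent.CFT.W.Defs

/-!
# CFT / Part W, WP W-SCAL : restriction of scalars `k ↓ 𝔽_p` for the cochain spaces.

All the spaces `Z1, B1, Z2, B2` have the same underlying SETS for `ρ` and for `rsRep p ρ`; hence the quotients `H1`, `H2` have the same cardinality
(`QuotientAddGroup.congr` / an explicit `Equiv` between the two quotients: both are quotients of the same set by the same relation).
-/

set_option autoImplicit false

namespace Fermat.Agent.CFT

open Module

variable (p : ℕ) [Fact p.Prime] {k : Type} [Field k] [Algebra (ZMod p) k] {G : Type} [Group G]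
  {V : Type} [AddCommGroup V] [Module k V] [Module (ZMod p) V] [IsScalarTower (ZMod p) k V]

/-- restriction of scalars -/
def rsRep (ρ : Representation k G V) : Representation (ZMod p) G V where
  toFun g := (ρ g).restrictScalars (ZMod p)
  map_one' := by ext x; simp
  map_mul' g h := by ext x; simp

@[simp] lemma rsRep_apply (ρ : Representation k G V) (g : G) (x : V) : rsRep p ρ g x = ρ g x := rfl

variable (𝒰 : Levels G) (ρ : Representation k G V)

theorem Z1_rsRep : Z1 𝒰 (rsRep p ρ) = (Z1 𝒰 ρ).restrictScalars (ZMod p) :=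
  Submodule.ext fun _ => Iff.rfl

theorem B1_rsRep : B1 (rsRep p ρ) = (B1 ρ).restrictScalars (ZMod p) :=
  Submodule.ext fun _ => Iff.rfl

theorem Z2_rsRep : Z2 𝒰 (rsRep p ρ) = (Z2 𝒰 ρ).restrictScalars (ZMod p) :=
  Submodule.ext fun _ => Iff.rfl

theorem B2_rsRep : B2 𝒰 (rsRep p ρ) = (B2 𝒰 ρ).restrictScalars (ZMod p) :=
  Submodule.ext fun _ => Iff.rfl

theorem isSmooth_rsRep {𝒰 : Levels G} {ρ : Representation k G V} (h : IsSmooth 𝒰 ρ) :
    IsSmooth 𝒰 (rsRep p ρ) := h

theorem card_H1_rsRep : Nat.card (H1 𝒰 (rsRep p ρ)) = Nat.card (H1 𝒰 ρ) := by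
  refine Nat.card_congr (Quotient.congr
    (Equiv.subtypeEquivRight (fun _ => Iff.rfl) : ↥(Z1 𝒰 (rsRep p ρ)) ≃ ↥(Z1 𝒰 ρ)) fun a b => ?_)
  rw [Submodule.quotientRel_def, Submodule.quotientRel_def]
  exact Iff.rfl

theorem card_H2_rsRep : Nat.card (H2 𝒰 (rsRep p ρ)) = Nat.card (H2 𝒰 ρ) := by
  refine Nat.card_congr (Quotient.congr
    (Equiv.subtypeEquivRight (fun _ => Iff.rfl) : ↥(Z2 𝒰 (rsRep p ρ)) ≃ ↥(Z2 𝒰 ρ)) fun a b => ?_)
  rw [Submodule.quotientRel_def, Submodule.quotientRel_def]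
  exact Iff.rfl

end Fermat.Agent.CFT
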