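import Fermat.Agent.CFT.W.Defs
import Fermat.Agent.CFT.W.LinAlg

/-!
# CFT / Part W, WP W-SEL : the Selmer inequality (only reciprocity, NO local duality).

`h^1_L(M) + h^1(G,M') ≤ sha^1(M) + ∑_v dim L_v + h^1_{L^⊥}(M')`.

PROOF. `X := ∏_v LocQ ρ L v` (finite dimensional), `Y := H1 D.lev ρ'` (finite: `finite_H1`).
`B : X × Y → k`, `B ((x_v), b) = ∑_v lam v (x_v ∪ res_v b)`: well defined because `cup11` of a coboundary and a
cocycle (either side) is a coboundary (`leibniz01`, `leibniz10`, F/Cup.lean, local versions via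
`IsEquivPairing.loc`) and `lam v` kills `B2` (`ctx.lamB`).
* `Sel ρ L → X`, `a ↦ (res_v a)_v` has kernel `Sha1 ρ` (here `hge : B1 ≤ L v` is used) and its image lies in
  `ker B` : for `a ∈ Z1 ρ`, `b ∈ Z1 ρ'`: `cup11 a b ∈ Z2 (chiRep χ)` (`leibniz11`, `cup11_mem_C2`) and
  `res2 (cup11 a b) v = cup11 (res_v a) (res_v b)`, so `ctx.lamRes` gives `B (res a) b = 0`.
  Hence `dim Sel ρ L ≤ sha^1 + dim ker B`.
* `ker B.flip = {b : ∀ v, ∀ x ∈ L v, lam v (x ∪ res_v b) = 0}` (test with `Pi.single v x`) `= Sel ρ' (perp L)`.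
* `WLin.finrank_ker_add`.
-/

set_option autoImplicit false

namespace Fermat.Agent.CFT

open Module

/-- the abstract Selmer inequality (pure linear algebra) -/
theorem WLin.selmer_abs {k : Type} [Field k] {A C E : Type} [AddCommGroup A] [Module k A]
    [AddCommGroup C] [Module k C] [AddCommGroup E] [Module k E]
    (r : A →ₗ[k] E) (ZA BA : Submodule k A) (LE BE : Submodule k E) (ZC BC : Submodule k C)
    (P : E →ₗ[k] C →ₗ[k] k) (hBE : BE ≤ LE)
    (hrB : ∀ a ∈ BA, r a ∈ BE)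
    (h1 : ∀ x ∈ BE, ∀ c ∈ ZC, P x c = 0)
    (h2 : ∀ x ∈ LE, ∀ c ∈ BC, c ∈ ZC → P x c = 0)
    (h3 : ∀ a ∈ ZA, r a ∈ LE → ∀ c ∈ ZC, P (r a) c = 0)
    (PerpC : Submodule k C) (hPerp : ∀ c, c ∈ PerpC ↔ c ∈ ZC ∧ ∀ x ∈ LE, P x c = 0)
    [Module.Finite k (↥LE ⧸ BE.submoduleOf LE)] [Module.Finite k (↥ZC ⧸ BC.submoduleOf ZC)]
    [Module.Finite k (↥(ZA ⊓ LE.comap r) ⧸ BA.submoduleOf (ZA ⊓ LE.comap r))] :
    finrank k (↥(ZA ⊓ LE.comap r) ⧸ BA.submoduleOf (ZA ⊓ LE.comap r)) +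
        finrank k (↥ZC ⧸ BC.submoduleOf ZC) ≤
      finrank k (↥(ZA ⊓ BE.comap r) ⧸ BA.submoduleOf (ZA ⊓ BE.comap r)) +
        finrank k (↥LE ⧸ BE.submoduleOf LE) + finrank k (↥PerpC ⧸ BC.submoduleOf PerpC) := by
  -- the bilinear form
  let P' : ↥LE →ₗ[k] ↥ZC →ₗ[k] k := P.domRestrict₁₂ LE ZC
  have hP' : ∀ (x : ↥LE) (c : ↥ZC), P' x c = P x.1 c.1 := fun x c => rfl
  let B : (↥LE ⧸ BE.submoduleOf LE) →ₗ[k] (↥ZC ⧸ BC.submoduleOf ZC) →ₗ[k] k :=
    P'.liftQ₂ (BE.submoduleOf LE) (BC.submoduleOf ZC)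
      (fun x hx => by
        rw [LinearMap.mem_ker]
        ext c
        exact h1 x.1 hx c.1 c.2)
      (fun c hc => by
        rw [LinearMap.mem_ker]
        ext x
        exact h2 x.1 x.2 c.1 hc c.2)
  have hB : ∀ (x : ↥LE) (c : ↥ZC),
      B (Submodule.Quotient.mk x) (Submodule.Quotient.mk c) = P x.1 c.1 := fun x c => rfl
  -- `φ : Sel → X`
  let r₀ : ↥(ZA ⊓ LE.comap r) →ₗ[k] ↥LE := r.restrict (fun a ha => ha.2)
  let φ : (↥(ZA ⊓ LE.comap r) ⧸ BA.submoduleOf (ZA ⊓ LE.comap r)) →ₗ[k]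
      (↥LE ⧸ BE.submoduleOf LE) :=
    Submodule.mapQ _ _ r₀ (fun a ha => hrB a.1 ha)
  have hφ : ∀ a, φ (Submodule.Quotient.mk a) = Submodule.Quotient.mk (r₀ a) := fun a => rfl
  have hφB : LinearMap.range φ ≤ LinearMap.ker B := by
    rintro _ ⟨x, rfl⟩
    obtain ⟨a, rfl⟩ := Submodule.Quotient.mk_surjective _ x
    rw [LinearMap.mem_ker, hφ]
    apply Submodule.linearMap_qext
    ext c
    exact h3 a.1 a.2.1 a.2.2 c.1 c.2
  -- `ψ : Sha → Sel`
  have hle : ZA ⊓ BE.comap r ≤ ZA ⊓ LE.comap r :=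
    inf_le_inf_left _ (Submodule.comap_mono hBE)
  let ψ : (↥(ZA ⊓ BE.comap r) ⧸ BA.submoduleOf (ZA ⊓ BE.comap r)) →ₗ[k]
      (↥(ZA ⊓ LE.comap r) ⧸ BA.submoduleOf (ZA ⊓ LE.comap r)) :=
    Submodule.mapQ _ _ (Submodule.inclusion hle) (fun a ha => ha)
  have hψ : Function.Injective ψ := by
    rw [← LinearMap.ker_eq_bot, LinearMap.ker_eq_bot']
    intro x hx
    obtain ⟨a, rfl⟩ := Submodule.Quotient.mk_surjective _ x
    have h1 : ψ (Submodule.Quotient.mk a) = Submodule.Quotient.mk (Submodule.inclusion hle a) := rfl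
    rw [h1, Submodule.Quotient.mk_eq_zero] at hx
    rw [Submodule.Quotient.mk_eq_zero]
    exact hx
  have hψr : LinearMap.ker φ ≤ LinearMap.range ψ := by
    intro x hx
    obtain ⟨a, rfl⟩ := Submodule.Quotient.mk_surjective _ x
    rw [LinearMap.mem_ker, hφ, Submodule.Quotient.mk_eq_zero] at hx
    exact ⟨Submodule.Quotient.mk ⟨a.1, a.2.1, hx⟩, rfl⟩
  -- `θ : Perp → Y`
  have hle' : PerpC ≤ ZC := fun c hc => ((hPerp c).1 hc).1
  let θ : (↥PerpC ⧸ BC.submoduleOf PerpC) →ₗ[k] (↥ZC ⧸ BC.submoduleOf ZC) :=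
    Submodule.mapQ _ _ (Submodule.inclusion hle') (fun a ha => ha)
  have hθ : Function.Injective θ := by
    rw [← LinearMap.ker_eq_bot, LinearMap.ker_eq_bot']
    intro x hx
    obtain ⟨a, rfl⟩ := Submodule.Quotient.mk_surjective _ x
    have h1 : θ (Submodule.Quotient.mk a) = Submodule.Quotient.mk (Submodule.inclusion hle' a) := rfl
    rw [h1, Submodule.Quotient.mk_eq_zero] at hx
    rw [Submodule.Quotient.mk_eq_zero]
    exact hx
  have hθr : LinearMap.ker B.flip ≤ LinearMap.range θ := by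
    intro y hy
    obtain ⟨c, rfl⟩ := Submodule.Quotient.mk_surjective _ y
    rw [LinearMap.mem_ker] at hy
    have hc : c.1 ∈ PerpC := (hPerp c.1).2 ⟨c.2, fun x hx => by
      have := congrArg (fun f => f (Submodule.Quotient.mk (⟨x, hx⟩ : ↥LE))) hy
      simpa [LinearMap.flip_apply, hB] using this⟩
    exact ⟨Submodule.Quotient.mk ⟨c.1, hc⟩, rfl⟩
  have e1 := LinearMap.finrank_range_add_finrank_ker φ
  have e2 : finrank k (LinearMap.range φ) ≤ finrank k (LinearMap.ker B) :=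
    Submodule.finrank_mono hφB
  have e3 : finrank k (LinearMap.ker φ) ≤ finrank k (LinearMap.range ψ) :=
    Submodule.finrank_mono hψr
  have e4 := LinearMap.finrank_range_of_inj hψ
  have e5 : finrank k (LinearMap.ker B.flip) ≤ finrank k (LinearMap.range θ) :=
    Submodule.finrank_mono hθr
  have e6 := LinearMap.finrank_range_of_inj hθ
  have e7 := WLin.finrank_ker_add B
  omega

section pairing

variable (D : Datum) {k : Type} [Field k] {V V' : Type} [AddCommGroup V] [Module k V]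
  [AddCommGroup V'] [Module k V'] (ρ' : Representation k D.G V') (β : V →ₗ[k] V' →ₗ[k] k)
  (lam : ∀ v : D.ι, (D.Gv v × D.Gv v → k) →ₗ[k] k)

/-- the sum of the local pairings `(x_v), b ↦ ∑_v lam_v (x_v ∪ res_v b)` on cochains. -/
noncomputable def Datum.selPair : (∀ v : D.ι, D.Gv v → V) →ₗ[k] (D.G → V') →ₗ[k] k :=
  LinearMap.mk₂ k (fun x b => ∑ v, lam v (cup11 (D.loc ρ' v) β (x v) (b ∘ D.r v)))
    (by
      intro x x' b
      rw [← Finset.sum_add_distrib]
      refine Finset.sum_congr rfl fun v _ => ?_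
      rw [← map_add]
      congr 1
      funext g
      simp [cup11])
    (by
      intro c x b
      rw [Finset.smul_sum]
      refine Finset.sum_congr rfl fun v _ => ?_
      rw [← map_smul]
      congr 1
      funext g
      simp [cup11])
    (by
      intro x b b'
      rw [← Finset.sum_add_distrib]
      refine Finset.sum_congr rfl fun v _ => ?_
      rw [← map_add]
      congr 1
      funext g
      simp [cup11])
    (by
      intro c x b
      rw [Finset.smul_sum]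
      refine Finset.sum_congr rfl fun v _ => ?_
      rw [← map_smul]
      congr 1
      funext g
      simp [cup11])

theorem Datum.selPair_apply (x : ∀ v : D.ι, D.Gv v → V) (b : D.G → V') :
    D.selPair ρ' β lam x b = ∑ v, lam v (cup11 (D.loc ρ' v) β (x v) (b ∘ D.r v)) := rfl

end pairing

section cup

variable {k : Type} [CommRing k] {G : Type} [Group G] {V V' : Type} [AddCommGroup V] [Module k V]
  [AddCommGroup V'] [Module k V'] {ρ : Representation k G V} {ρ' : Representation k G V'}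
  {χ : G →* kˣ} {β : V →ₗ[k] V' →ₗ[k] k} {𝒰 : Levels G}

/-- coboundary ∪ cocycle is a coboundary -/
theorem cup11_mem_B2_of_B1_left (hβ : IsEquivPairing ρ ρ' χ β) {a : G → V} (ha : a ∈ B1 ρ)
    {b : G → V'} (hb : b ∈ Z1 𝒰 ρ') : cup11 ρ' β a b ∈ B2 𝒰 (chiRep χ) := by
  obtain ⟨x, rfl⟩ := ha
  refine ⟨cup01 β x b, cup01_mem_C1 x hb.2, ?_⟩
  rw [leibniz01 hβ, LinearMap.mem_ker.1 hb.1]
  funext g
  simp [cup02]

/-- cocycle ∪ coboundary is a coboundary -/
theorem cup11_mem_B2_of_B1_right (hβ : IsEquivPairing ρ ρ' χ β) (hρ' : IsSmooth 𝒰 ρ')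
    {a : G → V} (ha : a ∈ Z1 𝒰 ρ) {b : G → V'} (hb : b ∈ B1 ρ') :
    cup11 ρ' β a b ∈ B2 𝒰 (chiRep χ) := by
  obtain ⟨y, rfl⟩ := hb
  refine ⟨- cup10 ρ' β a y, Submodule.neg_mem _ (cup10_mem_C1 hρ' ha.2 y), ?_⟩
  rw [map_neg, leibniz10 hβ, LinearMap.mem_ker.1 ha.1]
  funext g
  simp [cup20]

/-- cocycle ∪ cocycle is a cocycle -/
theorem cup11_mem_Z2 (hβ : IsEquivPairing ρ ρ' χ β) (hρ' : IsSmooth 𝒰 ρ')
    {a : G → V} (ha : a ∈ Z1 𝒰 ρ) {b : G → V'} (hb : b ∈ Z1 𝒰 ρ') :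
    cup11 ρ' β a b ∈ Z2 𝒰 (chiRep χ) := by
  refine ⟨LinearMap.mem_ker.2 ?_, cup11_mem_C2 hρ' ha.2 hb.2⟩
  rw [leibniz11 hβ, LinearMap.mem_ker.1 ha.1, LinearMap.mem_ker.1 hb.1]
  funext g
  simp [cup21, cup12]

end cup

variable {D : Datum} {k : Type} [Field k] {χ : D.G →* kˣ}
  {lam : ∀ v : D.ι, (D.Gv v × D.Gv v → k) →ₗ[k] k} {Φ : D.CC3 k →ₗ[k] k}

theorem finite_Sel (ctx : D.Ctx χ lam Φ) {M : Type} [AddCommGroup M] [Module k M]
    [FiniteDimensional k M] {ρ : Representation k D.G M} (hρ : IsSmooth D.lev ρ)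
    (L : ∀ v : D.ι, Submodule k (D.Gv v → M)) : Module.Finite k (D.Sel ρ L) := by
  have hfin : Module.Finite k (H1 D.lev ρ) := finite_H1 ctx hρ
  have hle : D.SelZ1 ρ L ≤ Z1 D.lev ρ := inf_le_left
  let j : D.Sel ρ L →ₗ[k] H1 D.lev ρ :=
    Submodule.mapQ _ _ (Submodule.inclusion hle) (by
      intro a ha
      exact ha)
  have hj : Function.Injective j := by
    rw [← LinearMap.ker_eq_bot, LinearMap.ker_eq_bot']
    intro x hx
    obtain ⟨a, rfl⟩ := Submodule.Quotient.mk_surjective _ x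
    have h1 : j (Submodule.Quotient.mk a) = Submodule.Quotient.mk (Submodule.inclusion hle a) := rfl
    rw [h1, Submodule.Quotient.mk_eq_zero] at hx
    rw [Submodule.Quotient.mk_eq_zero]
    exact hx
  exact Module.Finite.of_injective j hj

theorem selmer_le (ctx : D.Ctx χ lam Φ) {M : Type} [AddCommGroup M] [Module k M]
    [FiniteDimensional k M] {ρ : Representation k D.G M} (hρ : IsSmooth D.lev ρ)
    (L : ∀ v : D.ι, Submodule k (D.Gv v → M))
    (hle : ∀ v, L v ≤ Z1 (D.levv v) (D.loc ρ v)) (hge : ∀ v, B1 (D.loc ρ v) ≤ L v)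
    (hfin : ∀ v, Module.Finite k (D.LocQ ρ L v)) :
    finrank k (D.Sel ρ L) + finrank k (H1 D.lev (ρ.dual.twist χ)) ≤
      finrank k (D.Sha1 ρ) + (∑ v, finrank k (D.LocQ ρ L v)) +
        finrank k (D.Sel (ρ.dual.twist χ) (D.perp ρ χ lam L)) := by
  classical
  have hρ' : IsSmooth D.lev (ρ.dual.twist χ) := hρ.dualTwist ctx.chi_smooth
  have hβ := isEquivPairing_evalP ρ χ
  have hρ'v : ∀ v, IsSmooth (D.levv v) (D.loc (ρ.dual.twist χ) v) := fun v =>
    hρ'.comp_hom (D.r v) (D.cont v)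
  have hH1 : Module.Finite k (H1 D.lev (ρ.dual.twist χ)) := finite_H1 ctx hρ'
  have hSel : Module.Finite k (↥(Z1 D.lev ρ ⊓ (Submodule.pi Set.univ L).comap (D.res1 (k := k))) ⧸
      (B1 ρ).submoduleOf (Z1 D.lev ρ ⊓ (Submodule.pi Set.univ L).comap (D.res1 (k := k)))) :=
    finite_Sel ctx hρ L
  obtain ⟨e⟩ := LinAlg.quot_pi_family (k := k) L (fun v => B1 (D.loc ρ v))
  have hX : Module.Finite k (↥(Submodule.pi Set.univ L) ⧸
      (Submodule.pi Set.univ fun v => B1 (D.loc ρ v)).submoduleOf (Submodule.pi Set.univ L)) :=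
    Module.Finite.equiv e.symm
  have e5 : finrank k (∀ v, D.LocQ ρ L v) = ∑ v, finrank k (D.LocQ ρ L v) :=
    LinAlg.finrank_pi_family (fun v => D.LocQ ρ L v)
  have lamB' : ∀ v, ∀ b ∈ B2 (D.levv v) (chiRep (χ.comp (D.r v))), lam v b = 0 := by
    intro v b hb
    apply ctx.lamB v b
    rw [loc_chiRep]
    exact hb
  have key := WLin.selmer_abs (D.res1 (k := k)) (Z1 D.lev ρ) (B1 ρ) (Submodule.pi Set.univ L)
    (Submodule.pi Set.univ fun v => B1 (D.loc ρ v)) (Z1 D.lev (ρ.dual.twist χ))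
    (B1 (ρ.dual.twist χ)) (D.selPair (ρ.dual.twist χ) (evalP k M) lam)
    (fun x hx v hv => hge v (hx v hv))
    (fun a ha v _ => comp_hom_mem_B1 (D.r v) ha)
    (fun x hx c hc => by
      rw [Datum.selPair_apply]
      refine Finset.sum_eq_zero fun v _ => lamB' v _ ?_
      exact cup11_mem_B2_of_B1_left (hβ.loc v) (hx v (Set.mem_univ v))
        (comp_hom_mem_Z1 (D.r v) (D.cont v) hc))
    (fun x hx c hc _ => by
      rw [Datum.selPair_apply]
      refine Finset.sum_eq_zero fun v _ => lamB' v _ ?_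
      exact cup11_mem_B2_of_B1_right (hβ.loc v) (hρ'v v) (hle v (hx v (Set.mem_univ v)))
        (comp_hom_mem_B1 (D.r v) hc))
    (fun a ha _ c hc => by
      rw [Datum.selPair_apply]
      exact ctx.lamRes _ (cup11_mem_Z2 hβ hρ' ha hc))
    (D.SelZ1 (ρ.dual.twist χ) (D.perp ρ χ lam L))
    (fun c => by
      constructor
      · rintro ⟨hc, hc'⟩
        refine ⟨hc, fun x hx => ?_⟩
        rw [Datum.selPair_apply]
        exact Finset.sum_eq_zero fun v _ => (hc' v (Set.mem_univ v)).2 _ (hx v (Set.mem_univ v))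
      · rintro ⟨hc, hc'⟩
        refine ⟨hc, fun v _ => ⟨comp_hom_mem_Z1 (D.r v) (D.cont v) hc, fun a ha => ?_⟩⟩
        have h1 := hc' (Pi.single v a) (fun w _ => by
          by_cases hw : w = v
          · subst hw
            simpa using ha
          · rw [Pi.single_eq_of_ne hw]
            exact Submodule.zero_mem _)
        rw [Datum.selPair_apply, Finset.sum_eq_single v] at h1
        · rw [Pi.single_eq_same] at h1
          exact h1
        · intro w _ hw
          rw [Pi.single_eq_of_ne hw]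
          have : cup11 (D.loc (ρ.dual.twist χ) w) (evalP k M) (0 : D.Gv w → M) (c ∘ D.r w) = 0 := by
            funext g
            simp [cup11]
          rw [this, map_zero]
        · intro h
          exact absurd (Finset.mem_univ v) h)
  rw [e.finrank_eq, e5] at key
  exact key

end Fermat.Agent.CFT
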